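import Fermat.Agent.LT.Octa.Fields
import Fermat.Agent.LT.Descent.Deep
import Fermat.Agent.LT2.Cusp.Family
import Fermat.Agent.LT.Theta.Main
import Fermat.Agent.LT.Whit.GalInv

/-!
# The bundle of the octahedral input

The fields, as opaque types, the descent context, the theta datum, the eigenvalues, the auxiliary
places and a finite level of the representation.
-/

set_option autoImplicit false

noncomputable section

open IsDedekindDomain NumberField
open FermatAgent.GaloisBasic
open FermatAgent.LT.Period (GL3 refl3 IsEis IsFrobImage)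
open scoped MatrixGroups ContDiff

namespace FermatAgent.LT.Octa

/-- Everything the cubic descent and the period computation take from the representation. -/
structure OctaData (R : OctaRep) where
  /-- the imaginary quadratic field -/
  K : Type
  /-- the sextic field -/
  L : Type
  /-- the quadratic extension carrying the character -/
  M : Type
  [fieldK : Field K]
  [numK : NumberField K]
  [cplxK : IsTotallyComplex K]
  [pidK : IsPrincipalIdealRing (𝓞 K)]
  [fieldL : Field L]
  [numL : NumberField L]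
  [cplxL : IsTotallyComplex L]
  [fieldM : Field M]
  [algKL : Algebra K L]
  [algLM : Algebra L M]
  [quadM : Algebra.IsQuadraticExtension L M]
  /-- the square root of `-3` -/
  θ : K
  eis : IsEis θ
  /-- the context of the descent -/
  C : Ctx K L
  /-- the theta datum -/
  Θ : Theta.ThetaDatum L M
  UL_eq : C.UL = Θ.lvl
  UK_eq : C.UK = Level.ofFinset (Finset.cons C.v₃ C.Ram C.v₃_notMem_Ram)
  mem_S : ∀ w, w ∈ Θ.S ↔ C.b w = C.v₃
  S_ne : Θ.S.Nonempty
  /-- the eigenvalues above -/
  c : HeightOneSpectrum (𝓞 L) → ℂ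
  heck : ∀ w, w ∉ Θ.S → ∀ x, heckeOp w Θ.phi x = c w * Θ.phi x
  /-- the eigenvalues below, at the places split in the sextic field -/
  cK : HeightOneSpectrum (𝓞 K) → ℂ
  cK_split : ∀ w, C.IsSplit (C.b w) → C.b w ≠ C.v₃ → c w = cK (C.b w)
  /-- auxiliary split places of eigenvalue zero, carrying anchors -/
  aux : ∀ avoid : Finset (HeightOneSpectrum (𝓞 K)),
    ∃ v, Nonempty (LT2.Anchor C.toCtx v) ∧ v ∉ avoid ∧ cK v = 0
  /-- a finite level of the representation -/
  N : IntermediateField ℚ Qbar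
  [finN : FiniteDimensional ℚ N]
  [galN : IsGalois ℚ N]
  /-- the representation at that level -/
  eN : (N ≃ₐ[ℚ] N) →* GL3
  eN_surj : Function.Surjective eN
  eN_eq : ∀ σ : GQ, eN (AlgEquiv.restrictNormalHom N σ) = R.e σ
  /-- the excluded primes -/
  bad : Finset ℕ
  /-- Frobenius classes -/
  g : ℕ → GL3
  hg : ∀ p : ℕ, p.Prime → p ∉ bad → IsFrobImage N eN p (g p)
  hdet : ∀ p : ℕ, p.Prime → p ∉ bad → (g p).val.det = (p : ZMod 3)
  good : ∀ p : ℕ, p.Prime → p ∉ bad → ∀ v : HeightOneSpectrum (𝓞 K), (p : 𝓞 K) ∈ v.asIdeal →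
    v ≠ C.v₃ ∧ v ∉ C.Ram ∧ (p % 3 = 2 ∨ IsQ8 (g p) → C.IsSplit v)
  hsplit : ∀ p : ℕ, p.Prime → p ∉ bad → p % 3 = 1 →
    ∀ v : HeightOneSpectrum (𝓞 K), (p : 𝓞 K) ∈ v.asIdeal →
      (g p = 1 → cK v = (√(p : ℝ) : ℂ) * 2) ∧ (g p = -1 → cK v = (√(p : ℝ) : ℂ) * -2)
  hinert : ∀ p : ℕ, p.Prime → p ∉ bad → p % 3 = 2 →
    ∀ v : HeightOneSpectrum (𝓞 K), (p : 𝓞 K) ∈ v.asIdeal →
      (IsConj refl3 (g p) → cK v = (p : ℂ) * 2) ∧ (¬IsConj refl3 (g p) → cK v = 0)

attribute [instance] OctaData.fieldK OctaData.numK OctaData.cplxK OctaData.pidK OctaData.fieldL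
  OctaData.numL OctaData.cplxL OctaData.fieldM OctaData.algKL OctaData.algLM OctaData.quadM
  OctaData.finN OctaData.galN

namespace OctaData

variable {R : OctaRep} (D : OctaData R)

/-- The function is invariant. -/
lemma phi_smul (g : G2 D.L) (x : Space D.Θ.lvl) : D.Θ.phi (g • x) = D.Θ.phi x :=
  D.Θ.phi_smul D.S_ne g x

/-- The function is bounded. -/
lemma phi_bound : ∃ B, ∀ x, ‖D.Θ.phi x‖ ≤ B := D.Θ.exists_bound_phi D.S_ne

/-- The function is a radial eigenfunction. -/
lemma phi_radial (w : InfinitePlace D.L) (k : ℝ → ℝ) (hk : ContDiff ℝ ∞ k)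
    (hks : HasCompactSupport k) (x : Space D.Θ.lvl) :
    radialOp w (fun p q => k (H3.coshDist p q)) D.Θ.phi x = Whit.hT k * D.Θ.phi x :=
  D.Θ.radialOp_phi_hT w hk.continuous hks x

end OctaData

end FermatAgent.LT.Octa
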