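import Fermat.Agent.LT.Octa.Fields
import Fermat.Agent.Switch2.Supersingular
import Fermat.Agent.Mazur.Val

/-!
# The octahedral input from a semistable curve with supersingular reduction at `3`

At `3` all nonzero points of order three lie in the kernel of reduction, so their abscissae have
valuation `v(3)^(-1/4)` and pairwise ratios with different residues.  Hence inertia acts through a
`2`-group, cyclic as the ramification is tame, and of order eight as `x / y` has valuation
`v(3)^(1/8)`.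
-/

set_option autoImplicit false

noncomputable section

open WeierstrassCurve
open scoped WeierstrassCurve.Affine Pointwise

namespace FermatAgent.LT.Octa

open FermatAgent.ECLocal FermatAgent.GaloisBasic FermatAgent.Switch
open FermatAgent.LT.Period (GL3)

local notation "Qbar" => AlgebraicClosure ℚ
local notation "GQ" => AlgebraicClosure ℚ ≃ₐ[ℚ] AlgebraicClosure ℚ

variable {W : WeierstrassCurve ℤ}

set_option quotPrecheck false in
local notation "Tor" =>
  Submodule.torsionBy ℤ ((W.map (Int.castRingHom ℚ))⁄Qbar).Point ((3 : ℕ) : ℤ)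

set_option quotPrecheck false in
local notation "φ₃" =>
  Affine.Point.galoisRepModuleEnd ℚ (W.map (Int.castRingHom ℚ)).toAffine 3

/-- The abscissae of the points of order three. -/
lemma valuation_three_torsion {A : ValuationSubring Qbar} (hA : A.LiesOverPrime 3) (hΔ0 : W.Δ ≠ 0)
    (hgood : W.IsGoodPrimeFor 3) (h4 : (3 : ℤ) ∣ W.c₄) {x y : Qbar}
    (h : ((W.map (Int.castRingHom ℚ))⁄Qbar).toAffine.Nonsingular x y)
    (hn : 3 • (Affine.Point.some x y h) = 0) :
    1 < A.valuation x ∧ A.valuation x ^ 4 * A.valuation (3 : Qbar) = 1 := by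
  have : CharP (IsLocalRing.ResidueField A) 3 := residueChar A hA
  have hΔr : IsLocalRing.residue A (modelAt W A).Δ ≠ 0 :=
    residue_modelAt_Δ Nat.prime_three hA hgood
  have h2 : IsLocalRing.residue A (2 : A) ≠ 0 := by
    rw [map_ofNat]
    exact_mod_cast natCast_residue_ne_zero Nat.prime_three hA (by norm_num : ¬3 ∣ 2)
  simpa using valuation_x_of_all_isE1 Nat.prime_three (by decide) hA hΔ0
    (exists_simple_root_good _ h2 hΔr) (Switch2.isE1_of_supersingular hA hgood h4) h hn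

/-- Two roots of the division polynomial with the same leading residue agree. -/
lemma eq_of_ratio {A : ValuationSubring Qbar} (hA : A.LiesOverPrime 3) {V : WeierstrassCurve Qbar}
    {m : Qbar} (hb2 : V.b₂ = 3 * m) (hm : m ∈ A) (hb4 : V.b₄ ∈ A) (hb6 : V.b₆ ∈ A) {x x' : Qbar}
    (hx : x ∉ A) (h : V.Ψ₃.eval x = 0) (h' : V.Ψ₃.eval x' = 0)
    (ht : A.valuation (x' / x - 1) < 1) : x' = x := by
  have : CharP (IsLocalRing.ResidueField A) 3 := residueChar A hA
  by_contra hne
  have hx0 : x ≠ 0 := fun e => hx (e ▸ A.zero_mem)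
  simp only [WeierstrassCurve.Ψ₃, Polynomial.eval_add, Polynomial.eval_mul, Polynomial.eval_pow,
    Polynomial.eval_C, Polynomial.eval_X, Polynomial.eval_ofNat] at h h'
  set t := x' / x with ht'
  set s := x⁻¹ with hs'
  have htA : t ∈ A := by
    have := A.add_mem _ _ (mem_of_valuation_lt_one A ht) A.one_mem
    rwa [sub_add_cancel] at this
  have hsA : s ∈ A := inv_mem_of_not_mem A hx
  have e : (1 + t) * (1 + t ^ 2) + m * s * (1 + t + t ^ 2) + V.b₄ * s ^ 2 * (1 + t) +
      V.b₆ * s ^ 3 = 0 := by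
    refine mul_left_cancel₀ (mul_ne_zero (mul_ne_zero (three_ne_zero (α := Qbar))
      (pow_ne_zero 3 hx0)) (sub_ne_zero.2 hne)) ?_
    rw [mul_zero, ht', hs']
    field_simp
    rw [hb2] at h h'
    linear_combination h' - h
  let T : A := ⟨t, htA⟩
  let S : A := ⟨s, hsA⟩
  have e' : (1 + T) * (1 + T ^ 2) + ⟨m, hm⟩ * S * (1 + T + T ^ 2) + ⟨_, hb4⟩ * S ^ 2 * (1 + T) +
      ⟨_, hb6⟩ * S ^ 3 = 0 := Subtype.ext e
  have hT : IsLocalRing.residue A T = 1 := by
    rw [← map_one (IsLocalRing.residue A)]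
    exact (residue_eq_residue_iff A _ _).2 ht
  have hS : IsLocalRing.residue A S = 0 := by
    rw [residue_eq_zero_iff]
    show A.valuation x⁻¹ < 1
    rw [map_inv₀]; exact inv_lt_one_of_one_lt₀ ((one_lt_valuation_iff A).mpr hx)
  have := congrArg (IsLocalRing.residue A) e'
  simp only [map_add, map_mul, map_pow, map_one, map_zero, hT, hS] at this
  have h3 : (3 : IsLocalRing.ResidueField A) = 0 := by
    exact_mod_cast CharP.cast_eq_zero (IsLocalRing.ResidueField A) 3
  exact one_ne_zero (show (1 : IsLocalRing.ResidueField A) = 0 by linear_combination this - h3)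

/-- `x / y` at affine points. -/
def zOf {V : Affine Qbar} : V.Point → Qbar
  | .zero => 1
  | .some x y _ => x / y

/-- The coordinate is equivariant. -/
lemma zOf_smul (σ : GQ) (P : ((W.map (Int.castRingHom ℚ))⁄Qbar).Point) :
    σ (zOf P) = zOf (σ • P) := by
  rcases P with _ | ⟨x, y, h⟩
  · exact map_one σ
  · exact map_div₀ σ x y

section

variable [Fact (Nat.Prime 3)]

omit [Fact (Nat.Prime 3)] in
/-- An inertia element fixing a point of order three acts by signs. -/
lemma smul_eq_or_eq_neg (hΔ0 : W.Δ ≠ 0) (hgood : W.IsGoodPrimeFor 3) (h4 : (3 : ℤ) ∣ W.c₄)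
    {A : ValuationSubring Qbar} (hA : A.LiesOverPrime 3) {σ : GQ}
    (hσ : σ ∈ A.inertiaSubgroupIn ℚ) {v : Tor} (hv : v ≠ 0) (hfix : σ • v = v) (u : Tor) :
    σ • u = u ∨ σ • u = -u := by
  have hac := actsInertially_of_mem A σ hσ
  obtain ⟨_ | ⟨x, y, h⟩, hvm⟩ := v
  · exact absurd (Subtype.ext rfl) hv
  obtain ⟨_ | ⟨x', y', h'⟩, hum⟩ := u
  · left; exact Subtype.ext rfl
  have hσx : σ x = x := by
    have := congrArg Subtype.val hfix
    exact (Affine.Point.some.injEq _ _ _ _ _ _).mp this |>.1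
  have hn : ∀ {a b : Qbar} (hab : ((W.map (Int.castRingHom ℚ))⁄Qbar).toAffine.Nonsingular a b),
      Affine.Point.some a b hab ∈ Tor → 3 • Affine.Point.some a b hab = 0 := fun _ hm => by
    rwa [Submodule.mem_torsionBy_iff, natCast_zsmul] at hm
  obtain ⟨hx1, hx4⟩ := valuation_three_torsion hA hΔ0 hgood h4 h (hn h hvm)
  obtain ⟨hx1', hx4'⟩ := valuation_three_torsion hA hΔ0 hgood h4 h' (hn h' hum)
  have h30 : A.valuation (3 : Qbar) ≠ 0 := (Valuation.ne_zero_iff _).2 three_ne_zero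
  have hvx : A.valuation x' = A.valuation x :=
    pow_left_inj₀ zero_le zero_le (by norm_num : (4 : ℕ) ≠ 0) |>.1
      (mul_right_cancel₀ h30 (hx4'.trans hx4.symm))
  have hx0 : A.valuation x ≠ 0 := (zero_lt_one.trans hx1).ne'
  have hrat : x' / x ∈ A := A.mem_of_valuation_le_one _ (by
    rw [map_div₀, hvx, div_self hx0])
  have hlt := hac.val_map_sub (x' / x) hrat
  simp only [RingHom.coe_coe, map_div₀, hσx] at hlt
  have hroot : ∀ {a b : Qbar} (hab : ((W.map (Int.castRingHom ℚ))⁄Qbar).toAffine.Nonsingular a b),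
      3 • Affine.Point.some a b hab = 0 →
        ((W.map (Int.castRingHom ℚ))⁄Qbar).Ψ₃.eval a = 0 := fun hab h3 => by
    rw [EC.mem_roots_preΨ'_iff (baseChange_Δ_ne hΔ0) (by decide) hab, preΨ'_three] at h3
    exact h3
  have hσn : 3 • (σ • Affine.Point.some x' y' h' : ((W.map (Int.castRingHom ℚ))⁄Qbar).Point) = 0 :=
    hn _ (σ • (⟨_, hum⟩ : Tor)).2
  have hσx' : σ x' = x' := by
    obtain ⟨m, hm⟩ : (3 : ℤ) ∣ W.b₂ := by
      refine Int.Prime.dvd_pow' Nat.prime_three (k := 2) ?_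
      rw [WeierstrassCurve.c₄] at h4
      simpa using (Int.dvd_add h4 (dvd_mul_of_dvd_left (by norm_num : (3 : ℤ) ∣ 24) W.b₄))
    have hb : ∀ z : ℤ, (z : Qbar) ∈ A := intCast_mem A
    refine eq_of_ratio hA (V := ((W.map (Int.castRingHom ℚ))⁄Qbar)) (m := (m : Qbar))
      (by simp [WeierstrassCurve.baseChange, WeierstrassCurve.map_map, WeierstrassCurve.map_b₂, hm])
      (hb m) (by simp [WeierstrassCurve.baseChange, WeierstrassCurve.map_map,
        WeierstrassCurve.map_b₄, hb])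
      (by simp [WeierstrassCurve.baseChange, WeierstrassCurve.map_map, WeierstrassCurve.map_b₆, hb])
      ((one_lt_valuation_iff A).1 hx1') (hroot h' (hn h' hum)) (hroot _ hσn) ?_
    have e : σ x' / x' - 1 = (σ x' / x - x' / x) * (x / x') := by
      have : x ≠ 0 := fun e => hx0 (by rw [e, map_zero])
      have : x' ≠ 0 := fun e => hx0 (by rw [← hvx, e, map_zero])
      field_simp
    rw [e, map_mul, map_div₀ A.valuation x, hvx, div_self hx0, mul_one]
    exact hlt
  have hσu : ((W.map (Int.castRingHom ℚ))⁄Qbar).toAffine.Nonsingular (σ x') (σ y') := by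
    exact ((W.map (Int.castRingHom ℚ)).toAffine.baseChange_nonsingular
      (f := σ.toAlgHom) σ.injective x' y').mpr h'
  rcases Affine.Y_eq_of_X_eq hσu.1 h'.1 hσx' with hy | hy
  · left
    refine Subtype.ext ?_
    show Affine.Point.some (σ x') (σ y') hσu = _
    simp only [hσx', hy]
  · right
    refine Subtype.ext ?_
    show Affine.Point.some (σ x') (σ y') hσu = -Affine.Point.some x' y' h'
    rw [Affine.Point.neg_some]
    simp only [hσx', hy]

variable (hΔ0 : W.Δ ≠ 0) (hgood : W.IsGoodPrimeFor 3) (h4 : (3 : ℤ) ∣ W.c₄)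
include hΔ0 hgood h4

/-- No inertia element at `3` acts with order three. -/
lemma phi_eq_one_of_cube {A : ValuationSubring Qbar} (hA : A.LiesOverPrime 3) {σ : GQ}
    (hσ : σ ∈ A.inertiaSubgroupIn ℚ) (h3 : φ₃ σ ^ 3 = 1) : φ₃ σ = 1 := by
  have hΔq := EC.intMap_Δ_ne_zero hΔ0
  have hrank := EC.finrank_torsionBy_rat (W.map (Int.castRingHom ℚ)) hΔq 3
  have : Nontrivial Tor := Module.nontrivial_of_finrank_eq_succ hrank
  obtain ⟨v, hv, hfix⟩ : ∃ v : Tor, v ≠ 0 ∧ φ₃ σ v = v := by
    by_contra hcon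
    push Not at hcon
    have hinj : Function.Injective (φ₃ σ - 1 : Module.End (ZMod 3) Tor) := by
      rw [← LinearMap.ker_eq_bot, LinearMap.ker_eq_bot']
      intro w hw
      by_contra h0
      exact hcon w h0 (sub_eq_zero.1 hw)
    have hz : (φ₃ σ - 1 : Module.End (ZMod 3) Tor) ^ 3 = 0 := by
      have h30 : (3 : ℕ) • (φ₃ σ * φ₃ σ - φ₃ σ : Module.End (ZMod 3) Tor) = 0 :=
        LinearMap.ext fun w => ZModModule.char_nsmul_eq_zero 3 _
      calc _ = φ₃ σ ^ 3 - 1 - (3 : ℕ) • (φ₃ σ * φ₃ σ - φ₃ σ) := by noncomm_ring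
        _ = 0 := by rw [h3, h30, sub_self, sub_zero]
    obtain ⟨w, hw⟩ := exists_ne (0 : Tor)
    have hi3 := hinj.iterate 3
    rw [← Module.End.coe_pow, hz] at hi3
    exact hw (hi3 rfl)
  refine LinearMap.ext fun u => ?_
  show σ • u = u
  rcases smul_eq_or_eq_neg hΔ0 hgood h4 hA hσ hv hfix u with e | e
  · exact e
  · have h := LinearMap.congr_fun h3 u
    change σ • σ • σ • u = u at h
    rw [e, smul_neg, e, neg_neg, e] at h
    exact e.trans h

/-- Inertia at `3` acts through a `2`-group. -/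
lemma phi_pow_eight {A : ValuationSubring Qbar} (hA : A.LiesOverPrime 3) {σ : GQ}
    (hσ : σ ∈ A.inertiaSubgroupIn ℚ) : φ₃ σ ^ 8 = 1 := by
  have hΔq := EC.intMap_Δ_ne_zero hΔ0
  have hrank := EC.finrank_torsionBy_rat (W.map (Int.castRingHom ℚ)) hΔq 3
  rw [← map_pow]
  refine phi_eq_one_of_cube hΔ0 hgood h4 hA (pow_mem hσ 8) ?_
  rw [map_pow, ← pow_mul]
  refine Switch2.GLTwoThree.pow_twenty_four hrank _ fun h0 => ?_
  have hu : IsUnit (φ₃ σ) := (Units.isUnit ((φ₃).toHomUnits σ))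
  exact not_isUnit_zero (h0 ▸ hu.map LinearMap.det)

omit [Fact (Nat.Prime 3)] hΔ0 in
omit hgood h4 in
lemma pow_four_ne_one_aux {A : ValuationSubring Qbar} (hA : A.LiesOverPrime 3) {τ : GQ}
    (hgen : ∀ σ ∈ A.inertiaSubgroupIn ℚ, ∃ k : ℕ, φ₃ σ = φ₃ τ ^ k) (hτ : τ ∈ A.inertiaSubgroupIn ℚ)
    (hτ4 : φ₃ τ ^ 4 = 1) {x y : Qbar}
    (h : ((W.map (Int.castRingHom ℚ))⁄Qbar).toAffine.Nonsingular x y)
    (hP : Affine.Point.some x y h ∈ Tor) :
    A.valuation (x / y) ^ 8 ≠ A.valuation (3 : Qbar) := by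
  intro hz
  let G : ℕ → Qbar := fun i => zOf ((φ₃ τ ^ i) (⟨_, hP⟩ : Tor)).1
  have hG0 : G 0 = x / y := rfl
  have hstep : ∀ (σ : GQ) (k : ℕ), φ₃ σ = φ₃ τ ^ k → ∀ i, σ (G i) = G (k + i) := by
    intro σ k hk i
    show σ (zOf _) = zOf ((φ₃ τ ^ (k + i)) (⟨_, hP⟩ : Tor)).1
    rw [zOf_smul σ, pow_add, ← hk]
    rfl
  have hper : ∀ i, G (i + 4) = G i := fun i => by simp only [G, pow_add, hτ4, mul_one]
  let w := G 0 * G 1 * G 2 * G 3
  have hshift : ∀ k, G k * G (k + 1) * G (k + 2) * G (k + 3) = w := by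
    intro k
    induction k with
    | zero => rfl
    | succ k ih => rw [← ih, show k + 1 + 3 = k + 4 from rfl, hper k]; ring_nf
  have hfix : ∀ σ ∈ A.inertiaSubgroupIn ℚ, σ w = w := fun σ hσ => by
    obtain ⟨k, hk⟩ := hgen σ hσ
    simp only [w, map_mul, hstep σ k hk, add_zero, hshift]
  have hval : ∀ i, A.valuation (G i) = A.valuation (x / y) := fun i => by
    induction i with
    | zero => rfl
    | succ i ih =>
      rw [add_comm, ← hstep τ 1 (pow_one _).symm i, valuation_map_of_mem_decomposition A τ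
        (inertiaSubgroupIn_le_decompositionSubgroup A hτ), ih]
  have h30 : A.valuation (3 : Qbar) ≠ 0 := (Valuation.ne_zero_iff _).2 three_ne_zero
  have hw : A.valuation w = A.valuation (x / y) ^ 4 := by
    simp only [w, map_mul, hval, pow_succ, pow_zero, one_mul]
  have hw0 : w ≠ 0 := fun e => by
    rw [e, map_zero] at hw
    exact h30 (by rw [← hz, show (8 : ℕ) = 4 * 2 from rfl, pow_mul, ← hw, zero_pow two_ne_zero])
  obtain ⟨n, hn⟩ := Mazur.exists_zpow_valuation_eq Nat.prime_three hA hw0 hfix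
  have h2 : A.valuation (3 : Qbar) ^ (2 * n) = A.valuation (3 : Qbar) ^ (1 : ℤ) := by
    have e : A.valuation ((3 : ℕ) : Qbar) = A.valuation (3 : Qbar) := by norm_num
    rw [e] at hn
    rw [zpow_one, mul_comm, zpow_mul, ← hn, hw, zpow_ofNat, ← pow_mul, hz]
  have hlt : A.valuation (3 : Qbar) < 1 := by
    simpa using valuation_natCast_lt_one hA
  have := zpow_right_injective₀ (zero_lt_iff.mpr h30) hlt.ne h2
  omega

end

/-- The octahedral input of a curve. -/
theorem exists_octaRep (hΔ0 : W.Δ ≠ 0) (hW : W.IsSemistableModel) (hgood : W.IsGoodPrimeFor 3)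
    (h4 : (3 : ℤ) ∣ W.c₄) :
    ∃ (R : OctaRep) (b : Module.Basis (Fin 2) (ZMod 3) Tor), ∀ σ : GQ,
      (R.e σ).val = LinearMap.toMatrix b b (φ₃ σ) := by
  classical
  have : Fact (Nat.Prime 3) := ⟨Nat.prime_three⟩
  have hΔq := EC.intMap_Δ_ne_zero hΔ0
  have hrank := EC.finrank_torsionBy_rat (W.map (Int.castRingHom ℚ)) hΔq 3
  have : FiniteDimensional (ZMod 3) Tor := Module.finite_of_finrank_eq_succ hrank
  have : Finite Tor := Module.finite_of_finite (ZMod 3)
  let b := Module.finBasisOfFinrankEq (ZMod 3) Tor hrank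
  let m : Module.End (ZMod 3) Tor ≃ₐ[ZMod 3] Matrix (Fin 2) (Fin 2) (ZMod 3) :=
    LinearMap.toMatrixAlgEquiv b
  let e : GQ →* GL3 := (Units.map (m : _ →* _)).comp (MonoidHom.toHomUnits φ₃)
  have he : ∀ σ, (e σ).val = m (φ₃ σ) := fun σ => rfl
  have heq : ∀ {σ : GQ} {k : ℕ}, e σ ^ k = 1 ↔ φ₃ σ ^ k = 1 := fun {σ k} => by
    rw [Units.ext_iff, Units.val_pow_eq_pow_val, he, Units.val_one, ← map_pow,
      ← map_one m, m.injective.eq_iff]
  have hker : IsOpen (e.ker : Set GQ) :=
    EC.isOpen_ker_of_fixing (W.map (Int.castRingHom ℚ)) (n := 3) e fun σ h =>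
      Units.ext (by rw [he, h, map_one, Units.val_one])
  refine ⟨⟨⟨e, fun g => ?_, hker, fun σ ζ hζ => ?_⟩,
    fun q hq hq3 A hA σ hσ => heq.2 (Switch2.galoisRep_pow_three_eq_one hΔ0 hW hq hq3 hA hσ),
    fun A hA => ?_⟩, b, fun σ => rfl⟩
  · have hbij : Function.Bijective (m.symm g.val) := by
      rw [← Module.End.isUnit_iff]
      exact (Units.isUnit g).map m.symm
    obtain ⟨σ, hσ⟩ := Switch2.surjThree_of_supersingular hΔ0 hW hgood h4
      (AddEquiv.ofBijective (m.symm g.val).toAddMonoidHom hbij)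
    refine ⟨σ, Units.ext ?_⟩
    rw [he, show φ₃ σ = m.symm g.val from LinearMap.ext hσ, m.apply_symm_apply]
  · have hn : Nat.card (rootsOfUnity 3 Qbar) = 3 := IsAlgClosed.card_rootsOfUnity_eq Qbar 3
    have h := congrArg Units.val (EC.galoisRepDetEqCyclotomic_rat
      (W.map (Int.castRingHom ℚ)) hΔq 3 hn σ)
    rw [Affine.Point.galoisRepDet_apply, LinearEquiv.coe_det] at h
    have hd : (e σ).val.det = (modularCyclotomicCharacter Qbar hn (σ : Qbar ≃+* Qbar) : ZMod 3) :=
      ((LinearMap.det_toMatrix b _).trans h)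
    rw [hd]
    exact modularCyclotomicCharacter.spec Qbar hn (σ : Qbar ≃+* Qbar)
      (t := (IsUnit.of_pow_eq_one hζ three_ne_zero).unit)
      (by rw [mem_rootsOfUnity]; exact Units.ext (by simpa using hζ))
  · have : Fact (Nat.Prime 2) := ⟨Nat.prime_two⟩
    obtain ⟨τ, hτI, hτ⟩ := RT.exists_inertia_cyclotomic Nat.prime_three hA (-1)
    have htame : RT.IsTameGen A 2 τ :=
      RT.isTameGen_of_cyclotomic Nat.prime_three (by norm_num)
        (fun x => Switch2.units_three_mem x) hτI hτ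
    have hP : IsPGroup 2 ((A.inertiaSubgroupIn ℚ).map e) := by
      rintro ⟨_, σ, hσ, rfl⟩
      exact ⟨3, Subtype.ext (heq.2 (phi_pow_eight hΔ0 hgood h4 hA hσ))⟩
    have hgen := RT.map_inertia_eq_zpowers e Nat.prime_three hA (by norm_num) hker hP htame
    refine ⟨e τ, ?_, hgen⟩
    refine orderOf_eq_prime_pow (p := 2) (n := 2) ?_ (heq.2 (phi_pow_eight hΔ0 hgood h4 hA hτI))
    intro hτ4
    have : Nontrivial Tor := Module.nontrivial_of_finrank_eq_succ hrank
    obtain ⟨v, hv⟩ := exists_ne (0 : Tor)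
    obtain ⟨_ | ⟨x, y, h⟩, hvm⟩ := v
    · exact hv (Subtype.ext rfl)
    have hn : 3 • Affine.Point.some x y h = 0 := by
      have := hvm
      rwa [Submodule.mem_torsionBy_iff, natCast_zsmul] at this
    obtain ⟨hx1, hx4⟩ := valuation_three_torsion hA hΔ0 hgood h4 h hn
    refine pow_four_ne_one_aux hA (fun σ hσ => ?_) hτI (heq.1 hτ4) h hvm ?_
    · have hmem : e σ ∈ Subgroup.zpowers (e τ) := hgen ▸ ⟨σ, hσ, rfl⟩
      obtain ⟨k, hk⟩ := (isOfFinOrder_of_finite (e τ)).mem_powers_iff_mem_zpowers.2 hmem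
      refine ⟨k, m.injective ?_⟩
      rw [map_pow, ← he, ← he, ← Units.val_pow_eq_pow_val]
      exact congrArg Units.val hk.symm
    · have hEq : (gen (modelAt W A)).toAffine.Equation x y := by
        have := h.1
        simp only [gen, modelAt, WeierstrassCurve.map_map, WeierstrassCurve.baseChange] at this ⊢
        rwa [RingHom.ext_int (A.subtype.comp (Int.castRingHom A))
          ((algebraMap ℚ Qbar).comp (Int.castRingHom ℚ))]
      have hy := (val_y_of_x_not_mem hEq ((one_lt_valuation_iff A).1 hx1)).2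
      have hx0 : A.valuation x ≠ 0 := (zero_lt_one.trans hx1).ne'
      rw [map_div₀, div_pow, show (8 : ℕ) = 2 * 4 from rfl, pow_mul (A.valuation y), hy, ← pow_mul,
        div_eq_iff (pow_ne_zero _ hx0), show (3 * 4 : ℕ) = 2 * 4 + 4 from rfl, pow_add,
        mul_comm (A.valuation (3 : Qbar)), mul_assoc, hx4, mul_one]

end FermatAgent.LT.Octa
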