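import Fermat.Agent.LT.Octa.Local

/-!
# Primes below, primes above
-/

set_option autoImplicit false

noncomputable section

open scoped Classical NumberField
open IsDedekindDomain

namespace FermatAgent.LT.Octa

open CFT CFT.Coh CFT.Local CFT.Global GaloisBasic

variable {F0 F1 : IntermediateField ℚ Qbar} [FiniteDimensional ℚ F0] [FiniteDimensional ℚ F1]

/-- The prime of a subfield below a prime. -/
def primeBelow (F0 : IntermediateField ℚ Qbar) [FiniteDimensional ℚ F0] (P : PK F1) : PK F0 :=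
  primeAt F0 (qOf P) (gOf P)

/-- At any point the prime below is the prime of that point. -/
lemma primeBelow_eq (hle : F0 ≤ F1) {P : PK F1} {q : ℕ} [Fact q.Prime] {g : GQ}
    (hP : IsPoint P q g) : primeBelow F0 P = primeAt F0 q g := by
  suffices key : ∀ (q' : ℕ) (_ : Fact q'.Prime) (g' : GQ), IsPoint P q' g' →
      primeAt F0 q' g' = primeAt F0 q g from key _ _ _ (isPoint_gOf P)
  intro q' hq' g' hP'
  obtain rfl : q' = q := hP.prime_eq hP'
  refine HeightOneSpectrum.ext (Ideal.ext fun a => ?_)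
  let a1 : 𝓞 F1 := ⟨⟨((a : F0) : Qbar), hle (a : F0).2⟩,
    (isIntegral_algHom_iff (IsScalarTower.toAlgHom ℤ F1 Qbar) (algebraMap F1 Qbar).injective).mp
      ((NumberField.RingOfIntegers.isIntegral_coe a).map (IsScalarTower.toAlgHom ℤ F0 Qbar))⟩
  show ‖emb q' g' ((a : F0) : Qbar)‖ < 1 ↔ ‖emb q' g ((a : F0) : Qbar)‖ < 1
  exact (hP' a1).symm.trans (hP a1)

omit [FiniteDimensional ℚ F0] in
/-- The residue characteristic of a point. -/
lemma eq_of_natCast_mem {P : PK F0} {q : ℕ} [hq : Fact q.Prime] {g : GQ} (hP : IsPoint P q g)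
    {p : ℕ} (hp : p.Prime) (h : (p : 𝓞 F0) ∈ P.asIdeal) : q = p := by
  by_contra hne
  have h1 : ((q : ℕ) : 𝓞 F0) ∈ P.asIdeal :=
    (hP _).mpr (by simpa using norm_emb_natCast_lt_one (q := q) g)
  refine P.isPrime.ne_top ((Ideal.eq_top_iff_one _).mpr ?_)
  obtain ⟨u, v, huv⟩ : IsCoprime ((q : ℕ) : 𝓞 F0) (p : 𝓞 F0) :=
    Nat.Coprime.cast ((Nat.coprime_primes hq.out hp).mpr hne)
  rw [← huv]
  exact P.asIdeal.add_mem (P.asIdeal.mul_mem_left u h1) (P.asIdeal.mul_mem_left v h)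

omit [FiniteDimensional ℚ F0] in
/-- A prime contains three only at three. -/
lemma three_mem_iff {P : PK F0} {q : ℕ} [hq : Fact q.Prime] {g : GQ} (hP : IsPoint P q g) :
    (3 : 𝓞 F0) ∈ P.asIdeal ↔ q = 3 := by
  refine ⟨fun h3 => eq_of_natCast_mem hP Nat.prime_three (by exact_mod_cast h3), fun h => ?_⟩
  rw [show (3 : 𝓞 F0) = ((q : ℕ) : 𝓞 F0) by rw [h]; norm_num]
  exact (hP _).mpr (by simpa using norm_emb_natCast_lt_one (q := q) g)

end FermatAgent.LT.Octa
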