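import Fermat.Agent.LT.Octa.Three
import Fermat.Agent.LT2.Fields.ThetaW
import Fermat.Agent.LT.Theta.Main

/-!
# The theta datum and its eigenvalues
-/

set_option autoImplicit false

noncomputable section

open scoped Classical NumberField
open IsDedekindDomain

namespace FermatAgent.LT.Octa

open CFT CFT.Coh CFT.Local CFT.Global GaloisBasic
open FermatAgent.LT.Period (GL3)
open FermatAgent.LT2.Fields.GRep (thetaW_apply)

namespace OctaRep

variable (R : OctaRep)

/-- The special places. -/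
lemma finite_three : {w : PK R.Lf | (3 : 𝓞 R.Lf) ∈ w.asIdeal}.Finite :=
  (Ideal.finite_factors (I := Ideal.span {(3 : 𝓞 R.Lf)})
    (by simp)).subset fun w hw =>
      Ideal.dvd_iff_le.2 ((Ideal.span_singleton_le_iff_mem _).2 hw)

/-- The places over three. -/
def S3 : Finset (PK R.Lf) := R.finite_three.toFinset

/-- Membership among the places over three. -/
lemma mem_S3 {w : PK R.Lf} : w ∈ R.S3 ↔ (3 : 𝓞 R.Lf) ∈ w.asIdeal := Set.Finite.mem_toFinset _

lemma q_ne_three {w : PK R.Lf} (hv : w ∉ R.S3) {q : ℕ} [Fact q.Prime] {g : GQ}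
    (hw : IsPoint w q g) : q ≠ 3 :=
  fun h => hv (R.mem_S3.2 ((three_mem_iff hw).2 h))

lemma q_eq_three {w : PK R.Lf} (hv : w ∈ R.S3) {q : ℕ} [Fact q.Prime] {g : GQ}
    (hw : IsPoint w q g) : q = 3 :=
  (three_mem_iff hw).1 (R.mem_S3.1 hv)

/-- No inertia away from three. -/
lemma noInertia_S3 {w : PK R.Lf} (hv : w ∉ R.S3) (g : GQ) : R.NoInertia (qOf w) g R.Lf :=
  R.noInertia_Lf (R.q_ne_three hv (isPoint_gOf w)) (g := g)

lemma single_three {w : PK R.Lf} (hv : w ∈ R.S3) :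
    primeAt R.Mf (qOf w) (gOf w * R.jM) = primeAt R.Mf (qOf w) (gOf w) :=
  (R.threeAt (R.q_eq_three hv (isPoint_gOf w)) isPoint_primeAt).1

/-- The theta datum. -/
def thetaDatum : Theta.ThetaDatum R.Lf R.Mf where
  S := R.S3
  θ := R.thetaW
  unr _ hv := R.isUnr (R.noInertia_S3 hv)
  three_residues w hv :=
    R.absNorm_three (R.q_eq_three hv (isPoint_gOf w)) le_rfl (isPoint_gOf w)
  v_three w hv := (HeightOneSpectrum.valuation_lt_one_iff_mem (v := w) (K := R.Lf) (3 : 𝓞 R.Lf)).2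
    (R.mem_S3.1 hv)
  θ_unr _ hv _ hx hN := R.thetaW_unr (R.noInertia_S3 hv) hx hN
  θ_tame w hv x _ hN := by
    have hw := isPoint_gOf w
    have hs := R.single_three hv
    rw [R.valuation_lt_one_iff_emb hw, R.emb_norm_eq, R.norm_eq_of_primeAt_eq hs] at hN
    rw [R.thetaW_of_eq hs,
      R.charC_congr (R.q_eq_three hv hw) isPoint_primeAt (y := 1) (by simp) ?_, map_one]
    rw [AddSubgroupClass.coe_sub, map_sub] at hN
    nlinarith [norm_nonneg (emb (qOf w) (gOf w) (x : Qbar) -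
      emb (qOf w) (gOf w) ((1 : R.Mf) : Qbar))]
  norm_one w hv := by
    have hw := isPoint_gOf w
    obtain ⟨hs, h, h1, hN, hne⟩ := R.threeAt (R.q_eq_three hv hw) isPoint_primeAt
    refine ⟨h, (R.mem_lattice_iff hw h).2 ⟨h1.le, ?_⟩, hN, by rw [R.thetaW_of_eq hs]; exact hne⟩
    rw [R.norm_eq_of_primeAt_eq hs, h1]
  norm_θ w x hx := by
    rw [thetaW_apply, norm_prod]
    exact Finset.prod_eq_one fun P _ => norm_charC R.chi P hx
  prod_θ x hx := R.prod_thetaW hx
  θ_inert _ hv hi := R.thetaW_inert (R.noInertia_S3 hv) hi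
  θ_split _ hv hni := R.thetaW_split (R.noInertia_S3 hv) hni

end OctaRep

end FermatAgent.LT.Octa
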