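import Fermat.Agent.LT.Octa.Fields
import Fermat.Agent.LT2.Fields.Lattice

/-!
# The places over three

Inertia is cyclic of order eight and the decomposition group normalises it, so the residue field of
`L` has three elements, the place stays prime in `M`, and the component of the character is
nontrivial on an element of norm one.
-/

set_option autoImplicit false

noncomputable section

open scoped Classical NumberField Pointwise
open IsDedekindDomain

namespace FermatAgent.LT.Octa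

open CFT CFT.Coh CFT.Local CFT.Global GaloisBasic
open FermatAgent.LT.Period (GL3)

variable {q : ℕ} [hq : Fact q.Prime] {g : GQ}
variable {F0 : IntermediateField ℚ Qbar} [FiniteDimensional ℚ F0]

/-- Residues killed by `X³ - X` at three form the prime field. -/
lemma absNorm_eq_three (hq3 : q = 3) {P : PK F0} (hP : IsPoint P q g)
    (h : ∀ a : 𝓞 F0, a ^ 3 - a ∈ P.asIdeal) : P.asIdeal.absNorm = 3 := by
  have h1 := absNorm_le_of_pow (by norm_num) h
  rw [← resCard_eq_absNorm hP] at h1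
  obtain ⟨f, hf, hfq⟩ := exists_resCard_eq_pow (locField q g F0)
  rw [← resCard_eq_absNorm hP]
  rw [hfq, hq3] at h1 ⊢
  have : f ≤ 1 := (Nat.pow_le_pow_iff_right (by norm_num : 1 < 3)).1 (by simpa using h1)
  obtain rfl : f = 1 := by omega
  rfl

namespace OctaRep

variable (R : OctaRep)

/-- Away from three inertia has no image on `G_L`. -/
lemma noInertia_Lf (hq3 : q ≠ 3) : R.NoInertia q g R.Lf := fun s hs hsL =>
  q8_eq_one (R.mem_Lf.1 hsL) (R.inertia_ne q hq.out hq3 _ (liesOverPrime_plA g) s hs)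

/-- Inertia over three is cyclic of order eight. -/
lemma exists_gen (hq3 : q = 3) (g : GQ) : ∃ (x : GL3) (τ : GQ), x ^ 8 = 1 ∧ x ^ 4 ≠ 1 ∧
    τ ∈ (plA q g).inertiaSubgroupIn ℚ ∧ R.e τ = x ∧
    ((plA q g).inertiaSubgroupIn ℚ).map R.e = Subgroup.zpowers x := by
  obtain ⟨x, hx, hI⟩ := R.inertia_three (plA q g) (hq3 ▸ liesOverPrime_plA g)
  obtain ⟨τ, hτ, hτx⟩ : x ∈ ((plA q g).inertiaSubgroupIn ℚ).map R.e := hI ▸ Subgroup.mem_zpowers x
  refine ⟨x, τ, orderOf_dvd_iff_pow_eq_one.1 hx.dvd, fun h4 => ?_, hτ, hτx, hI⟩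
  have := Nat.le_of_dvd (by norm_num) (orderOf_dvd_of_pow_eq_one h4)
  omega

/-- Elements of the decomposition group are inertia times elements of `G_L`. -/
lemma exists_inertia_mul (hq3 : q = 3) {σ : GQ} (hσ : σ ∈ (plA q g).decompositionSubgroup ℚ) :
    (∃ s ∈ (plA q g).inertiaSubgroupIn ℚ, s⁻¹ * σ ∈ R.Lf.fixingSubgroup) ∧
    ∀ x, ((plA q g).inertiaSubgroupIn ℚ).map R.e = Subgroup.zpowers x → ¬IsC4 (x * x) →
      ∃ s ∈ (plA q g).inertiaSubgroupIn ℚ, s⁻¹ * σ ∈ R.Mf.fixingSubgroup := by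
  obtain ⟨x, τ, h8, h4, hτ, hτx, hI⟩ := R.exists_gen hq3 g
  have hmem : R.e (σ * τ * σ⁻¹) ∈ Subgroup.zpowers x :=
    hI ▸ ⟨_, conj_mem_inertiaSubgroupIn_of_mem hq.out (liesOverPrime_plA g) hτ hσ, rfl⟩
  obtain ⟨k, hk⟩ := (isOfFinOrder_of_finite x).mem_powers_iff_mem_zpowers.2 hmem
  have hk' : R.e σ * x * (R.e σ)⁻¹ = x ^ (⟨k % 8, Nat.mod_lt _ (by norm_num)⟩ : Fin 8).val := by
    rw [map_mul, map_mul, hτx, map_inv] at hk
    show _ = x ^ (k % 8)
    rw [← hk]
    exact pow_eq_pow_mod k h8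
  obtain ⟨h1, h2⟩ := normalizer_eight x (R.e σ) h8 h4 ⟨_, hk'⟩
  constructor
  · obtain ⟨i, hi⟩ := h1
    refine ⟨(τ ^ i.val)⁻¹, inv_mem (pow_mem hτ _), ?_⟩
    rw [inv_inv, R.mem_Lf, map_mul, map_pow, hτx]
    exact hi
  · intro x' hI' hx'
    by_cases hc : IsC4 (x * x)
    · exfalso
      refine hx' ?_
      obtain ⟨n, rfl⟩ := Subgroup.mem_zpowers_iff.1
        (show x' ∈ Subgroup.zpowers x from hI ▸ hI' ▸ Subgroup.mem_zpowers x')
      rw [← (Commute.refl x).mul_zpow]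
      exact c4.zpow_mem hc n
    obtain ⟨i, hi⟩ := h2 hc
    refine ⟨(τ ^ i.val)⁻¹, inv_mem (pow_mem hτ _), ?_⟩
    rw [inv_inv, R.mem_Mf, map_mul, map_pow, hτx]
    exact hi

/-- The residual action of a Frobenius of `ℚ` on integral elements. -/
lemma exists_frob (g : GQ) : ∃ σ ∈ (plA q g).decompositionSubgroup ℚ, ∀ x : Qbar, IsIntegral ℤ x →
    ‖emb q g (σ x) - emb q g x ^ q‖ < 1 := by
  obtain ⟨σ, hσ⟩ := exists_isFrobeniusAt hq.out (liesOverPrime_plA (q := q) g)
  refine ⟨σ, hσ.mem_decompositionSubgroup, fun x hx => ?_⟩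
  have := (isFrobeniusAt_iff hq.out (liesOverPrime_plA g) σ).1 hσ ⟨x, hx⟩
  rw [mem_center_plA] at this
  rw [← map_pow, ← map_sub]
  exact this

omit [FiniteDimensional ℚ F0] in
lemma integral_apply (σ : GQ) {x : Qbar} (hx : IsIntegral ℤ x) : IsIntegral ℤ (σ x) :=
  hx.map (σ.toAlgHom.restrictScalars ℤ)

/-- Integral elements fixed by the complement of inertia are congruent to their cubes. -/
lemma cube_sub_lt (hq3 : q = 3) {σ s : GQ}
    (hfr : ∀ x : Qbar, IsIntegral ℤ x → ‖emb q g (σ x) - emb q g x ^ q‖ < 1)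
    (hs : s ∈ (plA q g).inertiaSubgroupIn ℚ) {x : Qbar} (hx : IsIntegral ℤ x) :
    ‖emb q g ((s⁻¹ * σ) x) - emb q g x ^ 3‖ < 1 := by
  subst hq3
  have h1 := hfr x hx
  have h2 := norm_sub_lt_of_inertia hs (integral_apply (s⁻¹ * σ) hx)
  rw [← AlgEquiv.mul_apply, mul_inv_cancel_left] at h2
  rw [show emb 3 g ((s⁻¹ * σ) x) - emb 3 g x ^ 3 =
    (emb 3 g (σ x) - emb 3 g x ^ 3) + -(emb 3 g (σ x) - emb 3 g ((s⁻¹ * σ) x)) by ring]
  exact (IsUltrametricDist.norm_add_le_max _ _).trans_lt (max_lt h1 (by rwa [norm_neg]))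

/-- The residue fields of `K` and `L` at three have three elements. -/
theorem absNorm_three (hq3 : q = 3) (hle : F0 ≤ R.Lf) {P : PK F0} (hP : IsPoint P q g) :
    P.asIdeal.absNorm = 3 := by
  obtain ⟨σ, hσ, hfr⟩ := exists_frob (q := q) g
  obtain ⟨⟨s, hs, hsσ⟩, -⟩ := R.exists_inertia_mul hq3 hσ
  refine absNorm_eq_three hq3 hP fun a => ?_
  rw [hP]
  have h := cube_sub_lt hq3 hfr hs (x := ((a : F0) : Qbar))
    ((NumberField.RingOfIntegers.isIntegral_coe a).map (IsScalarTower.toAlgHom ℤ F0 Qbar))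
  rw [(IntermediateField.mem_fixingSubgroup_iff _ _).1 hsσ _ (hle (a : F0).2), ← map_pow,
    ← map_sub] at h
  rw [← norm_neg, ← map_neg, neg_sub] at h
  push_cast
  exact h

/-- Inertia elements move along with the point. -/
lemma conj_inertia_point {l : Gal' q} {u s : GQ} (hs : s ∈ (plA q g).inertiaSubgroupIn ℚ) :
    u⁻¹ * s * u ∈ (plA q (g * locHom q g l * u)).inertiaSubgroupIn ℚ := by
  rw [mem_inertiaSubgroupIn_iff hq.out (liesOverPrime_plA _)]
  intro b
  rw [mem_center_plA]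
  show ‖emb q (g * locHom q g l * u) ((u⁻¹ * s * u) (b : Qbar) - (b : Qbar))‖ < 1
  rw [map_sub, emb_mul, emb_mul, emb_mul, emb_mul, emb_locHom, emb_locHom, ← map_sub, norm_apply,
    AlgEquiv.mul_apply, AlgEquiv.mul_apply, ← AlgEquiv.mul_apply u u⁻¹, mul_inv_cancel,
    AlgEquiv.one_apply]
  exact norm_sub_lt_of_inertia hs (integral_apply u b.2)

/-- A character is ramified where an inertia element has nonzero value. -/
theorem not_unram_of_inertia {n : ℕ} [NeZero n] {ψ : CycChar LQ R.Mf.fixingSubgroup n}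
    (φ : GL3 → ZMod n) (hψ : ∀ σ, ψ σ = φ (R.e σ)) {P : PK R.Mf} (hP : IsPoint P q g) {s : GQ}
    (hs : s ∈ (plA q g).inertiaSubgroupIn ℚ) (hsM : s ∈ R.Mf.fixingSubgroup) (hne : ψ s ≠ 0) :
    ∀ c, ¬IsUnramWith ψ P c := by
  suffices key : ∀ (q' : ℕ) (_ : Fact q'.Prime) (g' : GQ), IsPoint P q' g' →
      ∀ c : ZMod n, ∃ d ∈ (locField q' g' R.Mf).fixingSubgroup,
        ψ (locHom q' g' d) ≠ c * frobExp (locField q' g' R.Mf) n d by
    intro c hc
    obtain ⟨d, hd, hne⟩ := key _ _ _ (isPoint_gOf P) c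
    exact hne (hc d hd)
  intro q' hq' g' hP' c
  obtain rfl : q' = q := hP.prime_eq hP'
  obtain ⟨l, u, hu, rfl⟩ := hP.exists_mul hP'
  obtain ⟨d, hd, he, h0⟩ := R.exists_local_of_inertia (F0 := R.Mf) (R.le_Nf c4) (n := n)
    (conj_inertia_point (l := l) (u := u) hs) (mul_mem (mul_mem (inv_mem hu) hsM) hu)
  refine ⟨d, hd, ?_⟩
  rw [hψ, he, h0, mul_zero, ← hψ, ψ.map_mul (mul_mem (inv_mem hu) hsM) hu,
    ψ.map_mul (inv_mem hu) hsM, ψ.map_inv hu, neg_add_eq_sub, sub_add_cancel]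
  exact hne

/-- Twice the character. -/
abbrev chiTwo : CycChar LQ R.Mf.fixingSubgroup 4 := CycChar.addChar R.chi R.chi

lemma invCh_chiTwo (P : PK R.Mf) {h : GM} (hh : h ∈ starK R.Mf) :
    invCh R.chiTwo P h = invCh R.chi P h + invCh R.chi P h := by
  rw [invCh_eq, invCh_eq]
  set Fl := CFT.Global.locK P
  set b := embUx (qOf P) (gOf P) h
  have hb : b ∈ starF Fl := embUx_mem_starF hh
  set ν := charAt R.chi (qOf P) (gOf P)
  show CFT.Local.inv Fl (cyc (CycChar.addChar ν ν) b) = _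
  rw [inv_congr Fl (add_mem (cyc_mem_Z2' Fl ν hb) (cyc_mem_Z2' Fl ν hb))
    (cyc_addChar_mem_B2 ν ν hb),
    inv_add Fl (cyc_mem_Z2' Fl ν hb) (cyc_mem_Z2' Fl ν hb)]

lemma circCh_sq_eq_one_iff (P : PK R.Mf) {h : GM} (hh : h ∈ starK R.Mf) :
    circCh R.chi P h ^ 2 = 1 ↔ invCh R.chiTwo P h = 0 := by
  rw [R.invCh_chiTwo P hh, sq, circCh, ← Circle.coe_mul, ← AddCircle.toCircle_add, ← map_add,
    ← Circle.coe_one, Circle.coe_inj, ← AddCircle.toCircle_zero (T := (1 : ℝ)),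
    (AddCircle.injective_toCircle one_ne_zero).eq_iff, ← map_zero qzReal, qzReal_injective.eq_iff]

variable {w : PK R.Lf} {P : PK R.Mf} (hq3 : q = 3) (hP : IsPoint P q g)
include hq3 hP

/-- Units congruent to one have trivial component. -/
lemma charC_congr {x y : R.Mf} (hy : ‖emb q g (y : Qbar)‖ = 1)
    (hxy : ‖emb q g (x : Qbar) - emb q g (y : Qbar)‖ < 1) :
    charC R.chi P x = charC R.chi P y := by
  have hy0 : y ≠ 0 := fun e => by simp [e] at hy
  suffices key : ∀ z : R.Mf, ‖emb q g (z : Qbar) - 1‖ < 1 → charC R.chi P z = 1 by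
    rw [show x = x / y * y by rw [div_mul_cancel₀ _ hy0], map_mul, key (x / y) ?_, one_mul]
    rw [IntermediateField.coe_div, map_div₀, div_sub_one (fun e => by simp [e] at hy), norm_div, hy,
      div_one]
    exact hxy
  intro z hz
  have hz0 : (z : Qbar) ≠ 0 := fun e => by simp [e] at hz
  rw [charC_apply R.chi P hz0, R.circCh_eq_one_iff]
  have hlt : P.valuation R.Mf (z - 1) < 1 := by
    rw [lt_iff_le_and_ne, hP.valuation_le_one_iff, Ne, hP.valuation_eq_one_iff,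
      AddSubgroupClass.coe_sub, map_sub, OneMemClass.coe_one, map_one]
    exact ⟨hz.le, hz.ne⟩
  have hg := isPoint_gOf P
  refine invCh_of_principal R.chi ?_ (mem_starK_of_mem R.Mf (a := Ux.mk (z : Qbar) hz0) z.2) ?_
  · rw [hP.prime_eq hg, hq3]; norm_num
  rw [lt_iff_le_and_ne, hg.valuation_le_one_iff, Ne, hg.valuation_eq_one_iff,
    AddSubgroupClass.coe_sub, map_sub, OneMemClass.coe_one, map_one, ← lt_iff_le_and_ne] at hlt
  exact hlt

/-- A residue of the prime field squares to one. -/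
lemma eq_one_or_neg_one {a : 𝓞 R.Mf} (ha : ‖emb q g ((a : R.Mf) : Qbar)‖ = 1)
    (h3 : ‖emb q g ((a : R.Mf) : Qbar) ^ 3 - emb q g ((a : R.Mf) : Qbar)‖ < 1) :
    charC R.chi P (a : R.Mf) = 1 ∨
      charC R.chi P (a : R.Mf) = charC R.chi P (-1 : R.Mf) := by
  set y := emb q g ((a : R.Mf) : Qbar)
  rw [show y ^ 3 - y = y * ((y - 1) * (y + 1)) by ring, norm_mul, ha, one_mul, norm_mul] at h3
  rcases lt_or_ge ‖y - 1‖ 1 with h | h
  · left
    rw [← map_one (charC R.chi P), R.charC_congr hq3 hP (y := 1) (by simp) (by simpa using h)]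
  · right
    have h' : ‖y + 1‖ < 1 := by nlinarith [norm_nonneg (y + 1)]
    exact R.charC_congr hq3 hP (y := -1) (by simp) (by simpa [sub_neg_eq_add] using h')

omit hq3 in
/-- A ramified component is seen by an integral element. -/
lemma exists_integral_of_ram {f : R.Mf →* ℂ}
    (hf : ∃ u : R.Mf, ‖emb q g (u : Qbar)‖ = 1 ∧ f u ≠ 1) :
    ∃ a : 𝓞 R.Mf, ‖emb q g ((a : R.Mf) : Qbar)‖ = 1 ∧ f (a : R.Mf) ≠ 1 := by
  obtain ⟨u, hu, hfu⟩ := hf
  obtain ⟨n, s, hs⟩ := P.exists_primeCompl_mul_eq_of_integer u ((hP.valuation_le_one_iff u).2 hu.le)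
  have hs' : u * ((s : 𝓞 R.Mf) : R.Mf) = (n : R.Mf) := hs
  have hs1 := hP.norm_eq_one_of_primeCompl s.2
  by_contra hno
  push Not at hno
  have hn := hno n (by rw [← hs', IntermediateField.coe_mul, map_mul, norm_mul, hu, hs1, one_mul])
  rw [← hs', map_mul, hno _ hs1, mul_one] at hn
  exact hfu hn

omit hq3 in
lemma norm_one_iff {u : GM} (hu : u ∈ starK R.Mf) :
    ordP P u.val = 0 ↔ ‖emb q g u.val‖ = 1 :=
  (hP.norm_eq_one_iff (val_mem_of_mem_starK R.Mf hu) u.val_ne_zero).symm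

/-- The place stays prime and the component is nontrivial on an element of norm one. -/
theorem threeAt :
    primeAt R.Mf q (g * R.jM) = P ∧
      ∃ h : R.Mf, ‖emb q g (h : Qbar)‖ = 1 ∧ Algebra.norm R.Lf h = 1 ∧
        charC R.chi P h ≠ 1 := by
  obtain ⟨x, τ, h8, h4, hτ, hτx, hI⟩ := R.exists_gen hq3 g
  obtain ⟨hdet, hx2, hx4, hodd⟩ := order_eight x h8 h4
  obtain ⟨σ, hσ, hfr⟩ := exists_frob (q := q) g
  obtain ⟨⟨s, hs, hsσ⟩, hsM⟩ := R.exists_inertia_mul hq3 hσ
  have hPe : P = primeAt R.Mf q g := hP.eq_primeAt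
  have hint : ∀ a : 𝓞 R.Mf, IsIntegral ℤ ((a : R.Mf) : Qbar) := fun a =>
    (NumberField.RingOfIntegers.isIntegral_coe a).map (IsScalarTower.toAlgHom ℤ R.Mf Qbar)
  by_cases hc : IsC4 (x * x)
  · -- twice the character is ramified
    have hτ2 : τ * τ ∈ (plA q g).inertiaSubgroupIn ℚ := mul_mem hτ hτ
    have hτ2M : τ * τ ∈ R.Mf.fixingSubgroup := R.mem_Mf.2 (by rw [map_mul, hτx]; exact hc)
    have hram := R.not_unram_of_inertia (ψ := R.chiTwo) (fun y => chi4 y + chi4 y) (fun _ => rfl)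
      hP hτ2 hτ2M (by
        show chi4 (R.e (τ * τ)) + chi4 (R.e (τ * τ)) ≠ 0
        rw [map_mul, hτx]
        rcases hodd hc with e | e <;> rw [e] <;> decide)
    obtain ⟨u, hu, hu0, hune⟩ := exists_invCh_ne_zero_of_ram (p := 2) (k := 2) R.chiTwo hram
    obtain ⟨a, ha, hane⟩ := R.exists_integral_of_ram hP
      (f := charC R.chi P * charC R.chi P)
      ⟨⟨u.val, val_mem_of_mem_starK R.Mf hu⟩, (R.norm_one_iff hP hu).1 hu0, by
        rw [MonoidHom.mul_apply, charC_apply R.chi P (x := ⟨u.val, _⟩) u.val_ne_zero, ← sq,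
          show Ux.mk u.val u.val_ne_zero = u from Ux.ext rfl, Ne, R.circCh_sq_eq_one_iff P hu]
        exact hune⟩
    rw [MonoidHom.mul_apply] at hane
    set b := emb q g ((a : R.Mf) : Qbar)
    have hnot : ¬‖b ^ 3 - b‖ < 1 := fun h3 => by
      rcases R.eq_one_or_neg_one hq3 hP ha h3 with e | e
      · exact hane (by rw [e, one_mul])
      · exact hane (by rw [e, ← map_mul, neg_one_mul, neg_neg, map_one])
    have hcube := cube_sub_lt hq3 hfr hs (hint a)
    have hlM : ¬IsC4 (R.e (s⁻¹ * σ)) := fun hl => hnot (by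
      rw [(IntermediateField.mem_fixingSubgroup_iff _ _).1 (R.mem_Mf.2 hl) _ (a : R.Mf).2,
        ← norm_neg, neg_sub] at hcube
      exact hcube)
    have hsingle : primeAt R.Mf q (g * R.jM) = P := by
      rw [hPe]
      exact R.primeAt_jM_of_decomposition
        (mul_mem (inv_mem (inertiaSubgroupIn_le_decompositionSubgroup _ hs)) hσ) hsσ hlM
    refine ⟨hsingle, ?_⟩
    set c := Theta.Quad.conj R.Lf R.Mf (a : R.Mf)
    have hc' : (c : Qbar) = (s⁻¹ * σ) ((a : R.Mf) : Qbar) := R.conj_eq hsσ hlM _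
    have hc1 : ‖emb q g (c : Qbar)‖ = 1 := by
      rw [R.emb_conj, R.norm_eq_of_primeAt_eq (hPe ▸ hsingle), ha]
    have hb0 : b ≠ 0 := fun e => by rw [e, norm_zero] at ha; exact zero_ne_one ha
    have ha0 : (a : R.Mf) ≠ 0 := fun e => hb0 (by simp [b, e])
    have hc0 : c ≠ 0 := fun e => by simp [e] at hc1
    refine ⟨c / (a : R.Mf), ?_, ?_, ?_⟩
    · rw [IntermediateField.coe_div, map_div₀, norm_div, hc1, ha, div_one]
    · refine (algebraMap R.Lf R.Mf).injective ?_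
      rw [Theta.Quad.norm_spec, map_div₀, Theta.Quad.conj_conj, map_one]
      field_simp
      exact div_self hc0
    · rw [R.charC_congr hq3 hP (y := (a : R.Mf) * (a : R.Mf)) ?_ ?_, map_mul]
      · exact hane
      · rw [IntermediateField.coe_mul, map_mul, norm_mul, ha, one_mul]
      · rw [IntermediateField.coe_div, map_div₀, IntermediateField.coe_mul, map_mul, hc',
          show emb q g ((s⁻¹ * σ) ((a : R.Mf) : Qbar)) / b - b * b =
            (emb q g ((s⁻¹ * σ) ((a : R.Mf) : Qbar)) - b ^ 3) / b by field_simp,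
          norm_div, ha, div_one]
        exact hcube
  · -- the character is ramified and residues lie in the prime field
    have hτ2L : τ * τ ∈ R.Lf.fixingSubgroup := R.mem_Lf.2 (by rw [map_mul, hτx]; exact hx2)
    have hsingle : primeAt R.Mf q (g * R.jM) = P := by
      rw [hPe]
      exact R.primeAt_jM_of_decomposition
        (inertiaSubgroupIn_le_decompositionSubgroup _ (mul_mem hτ hτ)) hτ2L
        (by rw [map_mul, hτx]; exact hc)
    refine ⟨hsingle, (-1 : R.Mf), by simp, ?_, ?_⟩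
    · refine (algebraMap R.Lf R.Mf).injective ?_
      rw [Theta.Quad.norm_spec, map_neg, map_one, map_one, neg_mul_neg, one_mul]
    have hτ4M : τ * τ * (τ * τ) ∈ R.Mf.fixingSubgroup :=
      R.mem_Mf.2 (by rw [map_mul, map_mul, hτx, hx4]; exact c4_neg_one.1)
    have hram := R.not_unram_of_inertia (ψ := R.chi) chi4 (fun _ => rfl) hP
      (mul_mem (mul_mem hτ hτ) (mul_mem hτ hτ)) hτ4M (by
        show chi4 (R.e (τ * τ * (τ * τ))) ≠ 0
        rw [map_mul, map_mul, hτx, hx4, c4_neg_one.2]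
        decide)
    obtain ⟨u, hu, hu0, hune⟩ := exists_invCh_ne_zero_of_ram (p := 2) (k := 2) R.chi hram
    obtain ⟨a, ha, hane⟩ := R.exists_integral_of_ram hP (f := charC R.chi P)
      ⟨⟨u.val, val_mem_of_mem_starK R.Mf hu⟩, (R.norm_one_iff hP hu).1 hu0, by
        rw [charC_apply R.chi P (x := ⟨u.val, _⟩) u.val_ne_zero,
          show Ux.mk u.val u.val_ne_zero = u from Ux.ext rfl, Ne, R.circCh_eq_one_iff]
        exact hune⟩
    obtain ⟨s', hs', hs'σ⟩ := hsM x hI hc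
    have hcube := cube_sub_lt hq3 hfr hs' (hint a)
    rw [(IntermediateField.mem_fixingSubgroup_iff _ _).1 hs'σ _ (a : R.Mf).2, ← norm_neg,
      neg_sub] at hcube
    rcases R.eq_one_or_neg_one hq3 hP ha hcube with e | e
    · exact absurd e hane
    · exact e ▸ hane

end OctaRep

end FermatAgent.LT.Octa
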