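import Fermat.Agent.LT.Octa.Over

/-!
# Local lemmas for the good primes
-/

set_option autoImplicit false

noncomputable section

open scoped Classical NumberField Pointwise
open IsDedekindDomain

namespace FermatAgent.LT.Octa

open CFT CFT.Coh CFT.Local CFT.Global GaloisBasic
open FermatAgent.LT.Period (GL3)

variable {F0 : IntermediateField ℚ Qbar} [FiniteDimensional ℚ F0]
variable {q : ℕ} [hq : Fact q.Prime] {g : GQ}

omit [FiniteDimensional ℚ F0] in
/-- Normal subfields have the same local field at translated embeddings. -/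
lemma locField_mul_eq [Normal ℚ F0] (u : GQ) : locField q (g * u) F0 = locField q g F0 := by
  have hu : ∀ (s : GQ) {x : Qbar}, x ∈ F0 → s x ∈ F0 := fun s x hx => by
    have := AlgEquiv.restrictNormal_commutes s F0 ⟨x, hx⟩
    exact this ▸ (AlgEquiv.restrictNormalHom F0 s ⟨x, hx⟩).2
  unfold locField
  congr 1
  ext y
  constructor
  · rintro ⟨x, hx, rfl⟩
    exact ⟨u x, hu u hx, rfl⟩
  · rintro ⟨x, hx, rfl⟩
    refine ⟨u⁻¹ x, hu u⁻¹ hx, ?_⟩
    rw [emb_mul, ← AlgEquiv.mul_apply, mul_inv_cancel, AlgEquiv.one_apply]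

namespace OctaRep

/-- Close integral elements have close powers. -/
lemma norm_pow_sub_pow_lt {a b : PadicAlgCl q} (ha : ‖a‖ ≤ 1) (hb : ‖b‖ ≤ 1) (h : ‖a - b‖ < 1)
    (n : ℕ) : ‖a ^ n - b ^ n‖ < 1 := by
  rw [← res_eq_res_iff (by rw [norm_pow]; exact pow_le_one₀ (norm_nonneg _) ha)
    (by rw [norm_pow]; exact pow_le_one₀ (norm_nonneg _) hb), res_pow ha, res_pow hb,
    (res_eq_res_iff ha hb).2 h]

end OctaRep

end FermatAgent.LT.Octa
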