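import Fermat.Agent.LT2.Fields.Places
import Fermat.Agent.LT.Octa.Three
import Fermat.Agent.LT2.Fields.Data
import Fermat.Agent.LT.Period.FieldPlaces

/-!
# The place over three and the ramified places
-/

set_option autoImplicit false

noncomputable section

open scoped Classical NumberField Pointwise
open IsDedekindDomain

namespace FermatAgent.LT.Octa

open CFT CFT.Coh CFT.Local CFT.Global GaloisBasic
open FermatAgent.LT.Period (GL3)

namespace OctaRep

variable (R : OctaRep)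

variable {q : ℕ} [hq : Fact q.Prime] {g : GQ}

/-- At three the local group of `K` is quaternionic. -/
lemma isQ8_of_three (hq3 : q = 3) {d : Gal' q} (hd : d ∈ (locField q g R.Kf).fixingSubgroup) :
    IsQ8 (R.e (locHom q g d)) := by
  have hl : locHom q g d ∈ (plA q g).decompositionSubgroup ℚ := by
    show locHom q g d • plA q g = plA q g
    refine SetLike.ext fun x => ?_
    rw [ValuationSubring.mem_pointwise_smul_iff_inv_smul_mem, mem_plA, mem_plA, ← map_inv]
    show ‖emb q g (locHom q g d⁻¹ x)‖ ≤ 1 ↔ _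
    rw [emb_locHom, norm_apply]
  obtain ⟨⟨s, hs, hsl⟩, -⟩ := R.exists_inertia_mul hq3 hl
  obtain ⟨x, τ, h8, h4, hτ, hτx, hI⟩ := R.exists_gen hq3 g
  obtain ⟨k, hk⟩ := (isOfFinOrder_of_finite x).mem_powers_iff_mem_zpowers.2
    (show R.e s ∈ Subgroup.zpowers x from hI ▸ ⟨s, hs, rfl⟩)
  have hk' : R.e s = x ^ (k % 8) := by rw [← hk]; exact pow_eq_pow_mod k h8
  have hsK : s ∈ R.Kf.fixingSubgroup := by
    have h := mul_mem (locHom_mem hd)
      (inv_mem (IntermediateField.fixingSubgroup_antitone R.Kf_le_Lf hsl))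
    rwa [mul_inv_rev, inv_inv, ← mul_assoc, mul_inv_cancel, one_mul] at h
  have hsQ : IsQ8 (R.e s) := by
    have := isQ8_pow_of_det x h8 h4 ⟨k % 8, Nat.mod_lt _ (by norm_num)⟩
      (by simpa only [← hk'] using R.mem_Kf.1 hsK)
    rwa [← hk'] at this
  have h := q8.mul_mem hsQ (R.mem_Lf.1 hsl)
  rwa [← map_mul, mul_inv_cancel_left] at h

variable {v v' : PK R.Kf}

/-- One place lies over three. -/
lemma eq_of_three_mem (h : (3 : 𝓞 R.Kf) ∈ v.asIdeal) (h' : (3 : 𝓞 R.Kf) ∈ v'.asIdeal) :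
    v = v' :=
  HeightOneSpectrum.ext ((R.isEis.asIdeal_eq_span h).trans (R.isEis.asIdeal_eq_span h').symm)

/-- The place of `K` over three. -/
def v3 : PK R.Kf :=
  haveI : Fact (Nat.Prime 3) := ⟨Nat.prime_three⟩
  primeAt R.Kf 3 1

/-- The chosen place lies over three. -/
lemma three_mem_v3 : (3 : 𝓞 R.Kf) ∈ R.v3.asIdeal :=
  haveI : Fact (Nat.Prime 3) := ⟨Nat.prime_three⟩
  (three_mem_iff (isPoint_primeAt (K := R.Kf) (q := 3) (g := 1))).2 rfl

variable {w : PK R.Lf}

/-- Places over the chosen place lie over three. -/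
lemma bK_eq_v3_iff {w : PK R.Lf} (hw : IsPoint w q g) : R.bK w = R.v3 ↔ q = 3 :=
  ⟨fun h => (three_mem_iff (R.isPoint_bK hw)).1 (h ▸ R.three_mem_v3),
    fun h => R.eq_of_three_mem ((three_mem_iff (R.isPoint_bK hw)).2 h) R.three_mem_v3⟩

/-- The chosen place has norm three. -/
lemma v3_norm : R.v3.asIdeal.absNorm = 3 :=
  haveI : Fact (Nat.Prime 3) := ⟨Nat.prime_three⟩
  R.absNorm_three rfl R.Kf_le_Lf (isPoint_primeAt (K := R.Kf) (q := 3) (g := 1))

/-- The chosen place splits. -/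
lemma v3_split (w : PK R.Lf) (h : R.bK w = R.v3) : placeMap R.tau w ≠ w := fun hfix => by
  have hw := isPoint_gOf w
  obtain ⟨d, hd, hnot⟩ := R.exists_not_q8 hw hfix
  exact hnot (R.isQ8_of_three ((R.bK_eq_v3_iff hw).1 h) hd)

/-- Being ramified in `L/K`. -/
def IsRam (v : PK R.Kf) : Prop :=
  ∃ w, R.bK w = v ∧ placeMap R.tau w = w ∧
    ∀ x : R.Kf, w.valuation R.Lf (algebraMap R.Kf R.Lf x) = v.valuation R.Kf x ^ 3

/-- Ramified places lie over bad primes. -/
lemma qOf_mem_badP {v : PK R.Kf} (h : R.IsRam v) : ∀ {q : ℕ} [Fact q.Prime] {g : GQ},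
    IsPoint v q g → q ∈ R.badP := by
  intro q hq g hv
  obtain ⟨w, rfl, -, hcube⟩ := h
  suffices key : ∀ (q' : ℕ) (_ : Fact q'.Prime) (g' : GQ), IsPoint w q' g' → q ∈ R.badP from
    key _ _ _ (isPoint_gOf w)
  intro q' hq' g' hw
  have hv' := R.isPoint_bK hw
  obtain rfl : q' = q := hv.prime_eq hv'
  by_contra hgood
  exact R.not_cube_of_noInertia hv' (R.noInertia_good hgood R.Kf g') hw hcube

lemma finite_isRam : {v : PK R.Kf | R.IsRam v}.Finite :=
  (R.finite_over_bad ∅).subset fun _ hv =>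
    R.badP_subset_bad ∅ (R.qOf_mem_badP hv (isPoint_gOf _))

/-- The ramified places. -/
def RamK : Finset (PK R.Kf) := R.finite_isRam.toFinset

/-- Membership among the ramified places. -/
lemma mem_RamK {v : PK R.Kf} : v ∈ R.RamK ↔ R.IsRam v := Set.Finite.mem_toFinset _

end OctaRep

end FermatAgent.LT.Octa
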