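import Fermat.Agent.LT.Octa.Bundle
import Fermat.Agent.LT.Octa.Datum
import Fermat.Agent.LT.Octa.Places
import Fermat.Agent.LT2.Fields.Datum
import Fermat.Agent.LT2.Fields.Good
import Fermat.Agent.LT.Octa.Curve
import Fermat.Agent.LT2.Cusp.Anchor

/-!
# The octahedral data exist
-/

set_option autoImplicit false

noncomputable section

open scoped Classical NumberField Pointwise
open scoped WeierstrassCurve.Affine
open IsDedekindDomain

namespace FermatAgent.LT.Octa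

open CFT CFT.Coh CFT.Local CFT.Global GaloisBasic
open FermatAgent.LT.Period (GL3 refl3)

namespace OctaRep

variable (R : OctaRep)

lemma mem_S3_iff {w : PK R.Lf} : w ∈ R.S3 ↔ R.bK w = R.v3 := by
  rw [R.bK_eq_v3_iff (isPoint_gOf w), R.mem_S3, three_mem_iff (isPoint_gOf w)]

lemma S3_stable (w : PK R.Lf) : placeMap R.tau w ∈ R.S3 ↔ w ∈ R.S3 := by
  rw [R.mem_S3_iff, R.mem_S3_iff, R.bK_tau]

lemma v3_notMem_RamK : R.v3 ∉ R.RamK := fun h => by
  obtain ⟨w, hb, hw, -⟩ := R.mem_RamK.1 h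
  exact R.v3_split w hb hw

lemma S3_nonempty : R.S3.Nonempty := by
  obtain ⟨w, hw⟩ := R.exists_bK R.v3
  exact ⟨w, R.mem_S3_iff.2 hw⟩

lemma mem_insert_v3 {v : PK R.Kf} :
    v ∈ Finset.cons R.v3 R.RamK R.v3_notMem_RamK ↔ v = R.v3 ∨ v ∈ R.RamK :=
  Finset.mem_cons

lemma valuation_three {v : PK R.Kf} (hv : v ≠ R.v3) : v.valuation R.Kf 3 = 1 :=
  (HeightOneSpectrum.valuation_eq_one_iff_notMem (v := v) (K := R.Kf) (r := (3 : 𝓞 R.Kf))).2
    fun h => hv (R.eq_of_three_mem h R.three_mem_v3)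

/-- The context of the descent. -/
def ctx : Ctx R.Kf R.Lf where
  __ := R.setup ∅
  τ := R.tau
  b := R.bK
  S := Finset.cons R.v3 R.RamK R.v3_notMem_RamK
  three v hv := R.valuation_three fun e => hv (R.mem_insert_v3.2 (Or.inl e))
  unram w hw hfix x := by
    have h3 : R.bK w ≠ R.v3 := fun e => hw (R.mem_insert_v3.2 (Or.inl e))
    have : w.asIdeal.LiesOver (R.bK w).asIdeal := ⟨R.bK_under w⟩
    rcases (NonSplit.of_fixed R.isTwist hfix (R.valuation_three h3)).inert_or_ramified with h | h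
    · exact h x
    · exact absurd (R.mem_RamK.2 ⟨w, rfl, hfix, h⟩) fun h' => hw (R.mem_insert_v3.2 (Or.inr h'))
  UL := Level.ofFinset R.S3
  UK := Level.ofFinset (Finset.cons R.v3 R.RamK R.v3_notMem_RamK)
  stable := Whit.ofFinset_stable R.tau R.S3_stable
  congrL := Whit.ofFinset_isCongr _
  congrK := Whit.ofFinset_isCongr _
  UL_else _ hw := Whit.ofFinset_loc_of_notMem fun h =>
    hw (R.mem_insert_v3.2 (Or.inl (R.mem_S3_iff.1 h)))
  UK_else _ hv := Whit.ofFinset_loc_of_notMem hv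
  incl_mem' w g hg := by
    by_cases h3 : R.bK w = R.v3
    · rw [Whit.ofFinset_loc_of_mem (R.mem_insert_v3.2 (Or.inl h3))] at hg
      rw [Whit.ofFinset_loc_of_mem (R.mem_S3_iff.2 h3)]
      exact (((R.setup ∅).pair w).g2Map_mem_locK1_iff g).2 hg
    · rw [Whit.ofFinset_loc_of_notMem fun h => h3 (R.mem_S3_iff.1 h)]
      exact (((R.setup ∅).pair w).g2Map_mem_locK_iff g).2 (Level.le _ _ hg)
  mem_of_incl' w hw g hg := by
    by_cases h3 : R.bK w = R.v3
    · rw [Whit.ofFinset_loc_of_mem (R.mem_S3_iff.2 h3)] at hg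
      rw [Whit.ofFinset_loc_of_mem (R.mem_insert_v3.2 (Or.inl h3))]
      exact (((R.setup ∅).pair w).g2Map_mem_locK1_iff g).1 hg
    · rw [Whit.ofFinset_loc_of_notMem fun h => h3 (R.mem_S3_iff.1 h)] at hg
      rw [Whit.ofFinset_loc_of_notMem fun h => (R.mem_insert_v3.1 h).elim h3 fun h' => ?_]
      · exact (((R.setup ∅).pair w).g2Map_mem_locK_iff g).1 hg
      · obtain ⟨w', hb, hfix, -⟩ := R.mem_RamK.1 h'
        exact hw ((R.setup ∅).eq_of_fixed hfix hb.symm ▸ hfix)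
  v₃ := R.v3
  v₃_norm := R.v3_norm
  v₃_three := (HeightOneSpectrum.valuation_lt_one_iff_mem (v := R.v3) (K := R.Kf) (3 : 𝓞 R.Kf)).2
    R.three_mem_v3
  v₃_uniq _ := R.valuation_three
  v₃_split := R.v3_split
  Ram := R.RamK
  mem_Ram _ := R.mem_RamK
  mem_S _ := R.mem_insert_v3
  UL_v₃ _ hw := Whit.ofFinset_loc_of_mem (R.mem_S3_iff.2 hw)
  UL_ne _ hw := Whit.ofFinset_loc_of_notMem fun h => hw (R.mem_S3_iff.1 h)
  UK_v₃ := Whit.ofFinset_loc_of_mem (Finset.mem_cons_self _ _)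
  UK_ram _ hv := Whit.ofFinset_loc_of_mem (Finset.mem_cons.2 (Or.inr hv))

lemma heck_eigL {w : PK R.Lf} (h : w ∉ R.S3) (x : Space R.thetaDatum.lvl) :
    heckeOp w R.thetaDatum.phi x = R.eigL w * R.thetaDatum.phi x := by
  rcases R.thetaDatum.inert_or_splitPrime h with hi | ⟨ϖ, hϖ, -⟩
  · rw [R.thetaDatum.heckeOp_phi_inert h hi x,
      LT2.Fields.GRep.eigL_inert R.toGRep (R.noInertia_S3 h) hi, zero_mul]
  · rw [R.thetaDatum.heckeOp_phi_split h hϖ x,
      ← LT2.Fields.GRep.eigL_split R.toGRep (R.noInertia_S3 h) hϖ]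
    rfl

/-- The bad places of the tame setting are among those of the representation. -/
lemma mem_badK_of_mem {v : PK R.Kf} (hv : v = R.v3 ∨ v ∈ R.RamK) : v ∈ R.badK ∅ := by
  have hvp := isPoint_gOf v
  rw [R.mem_badK_iff_of_point ∅ hvp]
  refine R.badP_subset_bad ∅ ?_
  rcases hv with rfl | h
  · rw [(three_mem_iff hvp).1 R.three_mem_v3]
    exact R.three_mem_badP
  · exact R.qOf_mem_badP (R.mem_RamK.1 h) hvp

/-- The bundle. -/
def octaData : OctaData R where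
  K := R.Kf
  L := R.Lf
  M := R.Mf
  θ := 2 * R.zeta3 + 1
  eis := R.isEis
  C := R.ctx
  Θ := R.thetaDatum
  UL_eq := rfl
  UK_eq := rfl
  mem_S _ := R.mem_S3_iff
  S_ne := R.S3_nonempty
  c := R.eigL
  heck _ hw x := R.heck_eigL hw x
  cK := R.eigK
  cK_split w _ _ := R.eigL_eq_eigK w
  aux avoid := by
    obtain ⟨v, hA, hav, hc⟩ := LT2.Main.exists_anchor R.toGRep ∅ R.ctx.toCtx rfl rfl
      (fun u hu => R.mem_badK_of_mem (R.mem_insert_v3.1 hu)) avoid
    exact ⟨v, hA, hav, hc⟩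
  N := R.Nf
  eN := R.eN
  eN_surj := R.eN_surj
  eN_eq := R.eN_eq
  bad := R.badP
  g := R.gP
  hg _ hp _ := R.isFrobImage_gP hp
  hdet _ hp hbad := R.det_gP hp hbad
  good p hp hbad v hv := by
    have : Fact p.Prime := ⟨hp⟩
    suffices key : ∀ (q : ℕ) (_ : Fact q.Prime) (g : GQ), IsPoint v q g → v ≠ R.v3 ∧ v ∉ R.RamK by
      obtain ⟨h1, h2⟩ := key _ _ _ (isPoint_gOf v)
      exact ⟨h1, h2, fun h w hw => (LT2.Fields.GRep.good_aux R.toGRep hbad hv h hw).1⟩
    intro q hq g hvp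
    obtain rfl : q = p := eq_of_natCast_mem hvp hp hv
    refine ⟨fun e => hbad ?_, fun h => hbad (R.qOf_mem_badP (R.mem_RamK.1 h) hvp)⟩
    rw [(three_mem_iff hvp).1 (e ▸ R.three_mem_v3)]
    exact R.three_mem_badP
  hsplit _ hp hbad h1 _ hv := R.hsplit hp hbad h1 hv
  hinert _ hp hbad h2 _ hv := R.hinert hp hbad h2 hv

end OctaRep

/-- The octahedral data exist. -/
theorem exists_octaData (R : OctaRep) : Nonempty (OctaData R) := ⟨R.octaData⟩

/-- The octahedral data of a semistable curve with supersingular reduction at `3`. -/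
theorem exists_octaData_of_curve [Fact (Nat.Prime 3)] {W : WeierstrassCurve ℤ} (hΔ0 : W.Δ ≠ 0)
    (hW : W.IsSemistableModel) (hgood : W.IsGoodPrimeFor 3) (h4 : (3 : ℤ) ∣ W.c₄) :
    ∃ (R : OctaRep) (b : Module.Basis (Fin 2) (ZMod 3)
      (Submodule.torsionBy ℤ ((W.map (Int.castRingHom ℚ))⁄(AlgebraicClosure ℚ)).Point
        ((3 : ℕ) : ℤ))),
      Nonempty (OctaData R) ∧ ∀ σ : GQ, (R.e σ).val = LinearMap.toMatrix b b
        (WeierstrassCurve.Affine.Point.galoisRepModuleEnd ℚ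
          (W.map (Int.castRingHom ℚ)).toAffine 3 σ) := by
  obtain ⟨R, b, hb⟩ := exists_octaRep hΔ0 hW hgood h4
  exact ⟨R, b, exists_octaData R, hb⟩

end FermatAgent.LT.Octa
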