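import Fermat.Agent.LT2.Fields.Rep

/-!
# The octahedral input

Its fields and their arithmetic are those of the underlying surjection.
-/

set_option autoImplicit false

noncomputable section

open FermatAgent.GaloisBasic
open FermatAgent.LT.Period (GL3)
open FermatAgent.LT2.Fields (GRep)

namespace FermatAgent.LT.Octa

/-- A surjection of the absolute Galois group onto `GL₂(𝔽₃)` with cyclotomic determinant, inertia
of order dividing three away from `3` and cyclic inertia of order eight at `3`. -/
structure OctaRep extends GRep where
  inertia_ne : ∀ q : ℕ, q.Prime → q ≠ 3 → ∀ A : ValuationSubring Qbar, A.LiesOverPrime q →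
    ∀ σ ∈ A.inertiaSubgroupIn ℚ, e σ ^ 3 = 1
  inertia_three : ∀ A : ValuationSubring Qbar, A.LiesOverPrime 3 →
    ∃ x : GL3, orderOf x = 8 ∧ (A.inertiaSubgroupIn ℚ).map e = Subgroup.zpowers x

end FermatAgent.LT.Octa
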