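import Fermat.Agent.LT.Octa.Local

/-!
# Auxiliary facts on exponents and on elements of order four
-/

set_option autoImplicit false
set_option maxRecDepth 20000

noncomputable section

open scoped Classical NumberField
open IsDedekindDomain

namespace FermatAgent.LT.Octa

open CFT CFT.Coh CFT.Local CFT.Global GaloisBasic
open FermatAgent.LT.Period (GL3)

/-- The exponential of a quarter. -/
lemma toCircle_qz (a : ℤ) :
    ((AddCircle.toCircle (qzReal (qz a 4)) : Circle) : ℂ) = Complex.I ^ a := by
  show ((AddCircle.toCircle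
      ((((a : ℚ) / ((4 : ℕ) : ℚ) : ℚ) : ℝ) : AddCircle (1 : ℝ)) : Circle) : ℂ) = _
  rw [AddCircle.toCircle_apply_mk, Circle.coe_exp,
    show Complex.I ^ a = Complex.exp ((a : ℂ) * ((Real.pi / 2 : ℝ) * Complex.I)) by
      rw [Complex.exp_int_mul, Complex.exp_mul_I, ← Complex.ofReal_cos, ← Complex.ofReal_sin,
        Real.cos_pi_div_two, Real.sin_pi_div_two]
      simp]
  congr 1
  push_cast
  ring

/-- The map to the reals is injective. -/
lemma qzReal_injective : Function.Injective qzReal := by
  refine (injective_iff_map_eq_zero _).2 fun z => ?_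
  obtain ⟨r, rfl⟩ := QuotientAddGroup.mk_surjective z
  intro h
  change (((r : ℝ)) : AddCircle (1 : ℝ)) = 0 at h
  rw [AddCircle.coe_eq_zero_iff] at h
  obtain ⟨n, hn⟩ := h
  refine (QuotientAddGroup.eq_zero_iff r).2 ⟨n, ?_⟩
  rw [zsmul_eq_mul, mul_one] at hn
  have hr : (n : ℚ) = r := by exact_mod_cast hn
  show n • (1 : ℚ) = r
  rw [zsmul_eq_mul, mul_one, hr]

end FermatAgent.LT.Octa
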