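import Fermat.Agent.LT.Octa.Rep

/-!
# Finite facts about `GL₂(𝔽₃)` used by the octahedral input
-/

set_option autoImplicit false
set_option maxRecDepth 100000

noncomputable section

open FermatAgent.LT.Period (GL3 refl3)

namespace FermatAgent.LT.Octa

/-- The group has forty eight elements. -/
lemma card_gl3 : Fintype.card GL3 = 48 := by
  rw [← Fintype.card_congr glEquiv]
  decide +kernel

/-- The quaternion group has eight elements. -/
lemma card_isQ8 : Fintype.card {g : GL3 // IsQ8 g} = 8 := by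
  rw [← Fintype.card_congr (glEquiv.subtypeEquiv
    (p := fun t => IsQ8 (glEquiv t)) fun _ => Iff.rfl)]
  decide +kernel

/-- The cyclic group has four elements. -/
lemma card_isC4 : Fintype.card {g : GL3 // IsC4 g} = 4 := by
  rw [← Fintype.card_congr (glEquiv.subtypeEquiv
    (p := fun t => IsC4 (glEquiv t)) fun _ => Iff.rfl)]
  decide +kernel

/-- The special linear group has twenty four elements. -/
lemma card_det_one : Fintype.card {g : GL3 // g.val.det = 1} = 24 := by
  rw [← Fintype.card_congr (glEquiv.subtypeEquiv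
    (p := fun t => (glEquiv t).val.det = 1) fun _ => Iff.rfl)]
  decide +kernel

/-- The quaternion subgroup has no element of order three. -/
lemma q8_eq_one {g : GL3} (h : IsQ8 g) (h3 : g ^ 3 = 1) : g = 1 := by
  have h4 := h.2
  rwa [pow_succ, h3, one_mul] at h4

set_option synthInstance.maxSize 4000 in
/-- The quaternion subgroup by the trace. -/
lemma isQ8_iff : ∀ g : GL3, IsQ8 g ↔
    g.val.det = 1 ∧
      (g.val.trace = 0 ∨ g.val = !![1, 0; 0, 1] ∨ g.val = !![-1, 0; 0, -1]) := by
  simp only [forall_gl3, glOf_val, Matrix.det_fin_two_of, Matrix.trace_fin_two_of, fin_two_eq_iff]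
  decide +kernel

/-- Elements of determinant `-1` square into the quaternion subgroup. -/
lemma isQ8_sq : ∀ g : GL3, g.val.det = 2 → IsQ8 (g * g) := by
  rw [forall_gl3]
  decide +kernel

set_option synthInstance.maxSize 4000 in
/-- Elements of order eight, and their powers. -/
lemma order_eight : ∀ x : GL3, x ^ 8 = 1 → x ^ 4 ≠ 1 →
    x.val.det = 2 ∧ IsQ8 (x * x) ∧ x * x * (x * x) = -1 ∧
      (IsC4 (x * x) → chi4 (x * x) = 1 ∨ chi4 (x * x) = 3) := by
  rw [forall_gl3]
  decide +kernel

set_option synthInstance.maxSize 4000 in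
/-- An element normalising a cyclic subgroup of order eight, times a small power of its generator,
lies in the quaternions, and in the other cyclic subgroup when that is distinct. -/
lemma normalizer_aux : ∀ x : GL3, x.val.det = 2 → x.val.trace ≠ 0 → ∀ y : GL3,
    y.val * x.val * ((y⁻¹).val * x.val) = x.val * (y.val * x.val * (y⁻¹).val) →
      (IsQ8 y ∨ IsQ8 (x * y)) ∧
        (¬IsC4 (x * x) → IsC4 y ∨ IsC4 (x * y) ∨ IsC4 (x * x * y) ∨ IsC4 (x * x * x * y)) := by
  simp only [forall_gl3, isQ8_iff, IsC4, Units.val_mul, glOf_val, glOf_val_inv,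
    Matrix.mul_fin_two, Matrix.det_fin_two_of, Matrix.trace_fin_two_of, fin_two_eq_iff,
    Matrix.det_mul, Matrix.cons_val', Matrix.cons_val_zero, Matrix.cons_val_one,
    Matrix.of_apply, Matrix.empty_val', Matrix.cons_val_fin_one]
  decide +kernel

lemma trace_order_eight : ∀ x : GL3, x ^ 8 = 1 → x ^ 4 ≠ 1 → x.val.trace ≠ 0 := by
  rw [forall_gl3]
  decide +kernel

/-- The normaliser of a cyclic subgroup of order eight meets every coset of the quaternions in
that subgroup. -/
lemma normalizer_eight : ∀ x y : GL3, x ^ 8 = 1 → x ^ 4 ≠ 1 →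
    (∃ k : Fin 8, y * x * y⁻¹ = x ^ k.val) →
      (∃ k : Fin 8, IsQ8 (x ^ k.val * y)) ∧
      (¬IsC4 (x * x) → ∃ k : Fin 8, IsC4 (x ^ k.val * y)) := by
  rintro x y h8 h4 ⟨k, hk⟩
  have e : y * x * y⁻¹ * x = x * (y * x * y⁻¹) := by rw [hk, ← pow_succ, pow_succ']
  have hq := normalizer_aux x (order_eight x h8 h4).1 (trace_order_eight x h8 h4) y (by
    have := congrArg Units.val e
    simpa only [Units.val_mul, mul_assoc] using this)
  refine ⟨?_, fun hc => ?_⟩
  · rcases hq.1 with h | h
    · exact ⟨0, by simpa using h⟩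
    · exact ⟨1, by simpa using h⟩
  · rcases hq.2 hc with h | h | h | h
    · exact ⟨0, by simpa using h⟩
    · exact ⟨1, by simpa using h⟩
    · exact ⟨2, by simpa [pow_succ] using h⟩
    · exact ⟨3, by simpa [pow_succ] using h⟩

/-- Minus one lies in the cyclic group, with character value two. -/
lemma c4_neg_one : IsC4 (-1 : GL3) ∧ chi4 (-1 : GL3) = 2 := by decide +kernel

/-- Squares off the cyclic subgroup. -/
lemma sq_eq_neg_one : ∀ g : GL3, IsQ8 g → ¬IsC4 g → g * g = -1 := by
  rw [forall_gl3]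
  decide +kernel

/-- The character of order four is a homomorphism. -/
lemma chi4_mul : ∀ g h : GL3, IsC4 g → IsC4 h → chi4 (g * h) = chi4 g + chi4 h := by
  have key : ∀ g : GL3, IsC4 g → ∀ h : GL3, IsC4 h → chi4 (g * h) = chi4 g + chi4 h := by
    simp only [forall_gl3]
    decide +kernel
  exact fun g h hg => key g hg h

/-- Conjugation inverts the character of order four. -/
lemma chi4_conj : ∀ g h : GL3, IsC4 g → IsQ8 h → ¬IsC4 h → chi4 (h * g * h⁻¹) = -chi4 g := by
  have key : ∀ g : GL3, IsC4 g → ∀ h : GL3, IsQ8 h → ¬IsC4 h →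
      chi4 (h * g * h⁻¹) = -chi4 g := by
    simp only [forall_gl3]
    decide +kernel
  exact fun g h hg => key g hg h

set_option synthInstance.maxSize 4000 in
/-- The quotient of two quaternions off the cyclic subgroup lies in it. -/
lemma q8_diff_mem_c4 : ∀ a b : GL3, IsQ8 a → IsQ8 b → ¬IsC4 a → ¬IsC4 b → IsC4 (a⁻¹ * b) := by
  have key : ∀ a : GL3, IsQ8 a → ¬IsC4 a → ∀ b : GL3, IsQ8 b → ¬IsC4 b → IsC4 (a⁻¹ * b) := by
    simp only [forall_gl3]
    decide +kernel
  exact fun a b ha hb ha' => key a ha ha' b hb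

/-- The quaternion group is larger than the cyclic one. -/
lemma exists_q8_not_c4 : ∃ g : GL3, IsQ8 g ∧ ¬IsC4 g := by
  rw [exists_gl3]
  decide +kernel

/-- The special linear group is larger than the quaternion one. -/
lemma exists_det_one_not_q8 : ∃ g : GL3, g.val.det = 1 ∧ ¬IsQ8 g := by
  rw [exists_gl3]
  decide +kernel

set_option synthInstance.maxSize 4000 in
/-- A generator of the determinant one subgroup modulo the quaternions. -/
lemma sl_mod_q8 : ∀ g h : GL3, g.val.det = 1 → ¬IsQ8 g → h.val.det = 1 →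
    IsQ8 h ∨ IsQ8 (g⁻¹ * h) ∨ IsQ8 (g⁻¹ * g⁻¹ * h) := by
  have key : ∀ g : GL3, g.val.det = 1 → ¬IsQ8 g → ∀ h : GL3, h.val.det = 1 →
      IsQ8 h ∨ IsQ8 (g⁻¹ * h) ∨ IsQ8 (g⁻¹ * g⁻¹ * h) := by
    simp only [forall_gl3, isQ8_iff, Units.val_mul, glOf_val, glOf_val_inv, Matrix.mul_fin_two,
      Matrix.det_fin_two_of, Matrix.trace_fin_two_of, fin_two_eq_iff, Matrix.det_mul]
    decide +kernel
  exact fun g h hg hg' => key g hg hg' h

/-- The squares of the elements of determinant `-1`. -/
lemma tC_sq_inert : ∀ g : GL3, g.val.det = 2 →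
    (IsConj refl3 g → g * g = 1) ∧ (¬IsConj refl3 g → tPair (g * g).val = (0, 0)) := by
  simp only [isConj_iff, forall_gl3, exists_gl3]
  decide +kernel

end FermatAgent.LT.Octa
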