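import Fermat.Agent.LT.Octa.Finite

/-!
# More finite facts about `GL₂(𝔽₃)`
-/

set_option autoImplicit false
set_option maxRecDepth 100000

noncomputable section

open FermatAgent.LT.Period (GL3 refl3)

namespace FermatAgent.LT.Octa

/-- Cubes of special linear elements are quaternion. -/
lemma det_one_cube : ∀ g : GL3, g.val.det = 1 → IsQ8 (g ^ 3) := by
  rw [forall_gl3]
  decide +kernel

/-- In a cyclic group of order eight the part of determinant one consists of quaternions. -/
lemma isQ8_pow_of_det : ∀ x : GL3, x ^ 8 = 1 → x ^ 4 ≠ 1 → ∀ k : Fin 8,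
    (x ^ k.val).val.det = 1 → IsQ8 (x ^ k.val) := by
  intro x h8 h4 k hk
  have hx := (order_eight x h8 h4).1
  rw [Units.val_pow_eq_pow_val, Matrix.det_pow, hx] at hk
  obtain ⟨j, hj⟩ : Even k.val := by
    rcases Nat.even_or_odd k.val with h | ⟨j, hj⟩
    · exact h
    · rw [hj, pow_succ, pow_mul, show (2 : ZMod 3) ^ 2 = 1 from rfl, one_pow, one_mul] at hk
      exact absurd hk (by decide)
  rw [hj, ← two_mul, pow_mul, pow_two]
  exact q8.pow_mem (order_eight x h8 h4).2.1 j

end FermatAgent.LT.Octa
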