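import Fermat.Agent.LT.Octa.Finite
import Fermat.Agent.CFT.Global.Primes
import Fermat.Agent.CFT.Global.Character

/-!
# Decomposition and inertia at an embedding
-/

set_option autoImplicit false

noncomputable section

open scoped Classical Pointwise NumberField
open IsDedekindDomain

namespace FermatAgent.LT.Octa

open CFT CFT.Coh CFT.Local CFT.Global GaloisBasic
open FermatAgent.LT.Period (GL3)

variable {q : ℕ} [hq : Fact q.Prime] {g : GQ}

/-- Residues killed by `X^N - X` bound the norm. -/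
lemma absNorm_le_of_pow {K : Type*} [Field K] [NumberField K] {P : HeightOneSpectrum (𝓞 K)}
    {N : ℕ} (hN : 1 < N) (h : ∀ a : 𝓞 K, a ^ N - a ∈ P.asIdeal) : P.asIdeal.absNorm ≤ N := by
  have := P.isMaximal
  let := Ideal.Quotient.field P.asIdeal
  have : Finite (𝓞 K ⧸ P.asIdeal) := Nat.finite_of_card_ne_zero (by
    rw [← Submodule.cardQuot_apply, ← Ideal.absNorm_apply]
    exact Ideal.absNorm_ne_zero_of_nonZeroDivisors
      ⟨P.asIdeal, mem_nonZeroDivisors_of_ne_zero P.ne_bot⟩)
  have := Fintype.ofFinite (𝓞 K ⧸ P.asIdeal)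
  have hsub : (Finset.univ : Finset (𝓞 K ⧸ P.asIdeal)).val ⊆
      (Polynomial.X ^ N - Polynomial.X : Polynomial (𝓞 K ⧸ P.asIdeal)).roots := fun z _ => by
    obtain ⟨a, rfl⟩ := Ideal.Quotient.mk_surjective z
    rw [Polynomial.mem_roots (FiniteField.X_pow_card_sub_X_ne_zero _ hN)]
    simp only [Polynomial.IsRoot, Polynomial.eval_sub, Polynomial.eval_pow, Polynomial.eval_X]
    rw [← map_pow, ← map_sub, Ideal.Quotient.eq_zero_iff_mem]
    exact h a
  have h1 := Polynomial.card_le_degree_of_subset_roots hsub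
  rwa [FiniteField.X_pow_card_sub_X_natDegree_eq _ hN, Finset.card_univ,
    ← Nat.card_eq_fintype_card, ← Submodule.cardQuot_apply, ← Ideal.absNorm_apply] at h1

variable (q) in
/-- The valuation subring of an embedding. -/
def plA (g : GQ) : ValuationSubring Qbar := g⁻¹ • padicPlace q

/-- The place of an embedding lies over its prime. -/
lemma liesOverPrime_plA (g : GQ) : (plA q g).LiesOverPrime q :=
  liesOverPrime_smul _ liesOverPrime_padicPlace

/-- Membership in the place of an embedding. -/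
lemma mem_plA {x : Qbar} : x ∈ plA q g ↔ ‖emb q g x‖ ≤ 1 := by
  rw [plA, ValuationSubring.mem_pointwise_smul_iff_inv_smul_mem, inv_inv, mem_padicPlace_iff,
    ← NNReal.coe_le_coe, coe_nnnorm, NNReal.coe_one]
  rfl

lemma mem_nonunits_plA {x : Qbar} : x ∈ (plA q g).nonunits ↔ ‖emb q g x‖ < 1 := by
  rcases eq_or_ne x 0 with rfl | h0
  · simp
  · have hpos : 0 < ‖emb q g x‖ := norm_pos_iff.mpr ((_root_.map_ne_zero _).mpr h0)
    rw [ValuationSubring.mem_nonunits_iff, ← not_le, ← not_le]
    refine not_congr ?_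
    rw [← inv_le_one₀ (zero_lt_iff.mpr ((Valuation.ne_zero_iff _).mpr h0)), ← map_inv₀,
      ValuationSubring.valuation_le_one_iff, mem_plA, map_inv₀, norm_inv, inv_le_one₀ hpos]

/-- The centre of the place. -/
lemma mem_center_plA {b : ZBar} : b ∈ center (plA q g) ↔ ‖emb q g (b : Qbar)‖ < 1 :=
  mem_center.trans mem_nonunits_plA

/-- The place of an embedding determines it up to the padic one. -/
lemma exists_eq_plA {A : ValuationSubring Qbar} (hA : A.LiesOverPrime q) :
    ∃ g : GQ, A = plA q g := by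
  obtain ⟨σ, hσ⟩ := exists_smul_eq hq.out (liesOverPrime_padicPlace (q := q)) hA
  exact ⟨σ⁻¹, by rw [plA, inv_inv, hσ]⟩

/-- The decomposition group preserves integrality. -/
lemma norm_emb_apply_le_iff {σ : GQ} (hσ : σ ∈ (plA q g).decompositionSubgroup ℚ) (x : Qbar) :
    ‖emb q g (σ x)‖ ≤ 1 ↔ ‖emb q g x‖ ≤ 1 := by
  have h : σ • plA q g = plA q g := hσ
  rw [← mem_plA, ← mem_plA]
  conv_rhs => rw [← ValuationSubring.smul_mem_pointwise_smul_iff (g := σ), h]
  rfl

lemma norm_emb_apply_lt_iff {σ : GQ} (hσ : σ ∈ (plA q g).decompositionSubgroup ℚ) (x : Qbar) :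
    ‖emb q g (σ x)‖ < 1 ↔ ‖emb q g x‖ < 1 := by
  rcases eq_or_ne x 0 with rfl | h0
  · simp
  have h := norm_emb_apply_le_iff hσ x⁻¹
  have h1 : 0 < ‖emb q g x‖ := norm_pos_iff.mpr ((_root_.map_ne_zero _).mpr h0)
  have h2 : 0 < ‖emb q g (σ x)‖ :=
    norm_pos_iff.mpr ((_root_.map_ne_zero _).mpr ((_root_.map_ne_zero σ).mpr h0))
  rw [map_inv₀, map_inv₀, map_inv₀, norm_inv, norm_inv, inv_le_one₀ h1, inv_le_one₀ h2] at h
  rw [← not_le, ← not_le, h]

/-- Inertia moves integers by small amounts. -/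
lemma norm_sub_lt_of_inertia {σ : GQ} (hσ : σ ∈ (plA q g).inertiaSubgroupIn ℚ) {x : Qbar}
    (hx : IsIntegral ℤ x) : ‖emb q g (σ x) - emb q g x‖ < 1 := by
  have := (mem_inertiaSubgroupIn_iff hq.out (liesOverPrime_plA g) σ).1 hσ ⟨x, hx⟩
  rw [mem_center_plA] at this
  rw [← map_sub]
  exact this

variable {F0 : IntermediateField ℚ Qbar} [FiniteDimensional ℚ F0]

omit [FiniteDimensional ℚ F0] in
/-- A subfield whose local Galois group is that of a larger one has the same local field. -/
lemma locField_eq_of_forall {F1 : IntermediateField ℚ Qbar} (hle : F0 ≤ F1)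
    (h : ∀ d ∈ (locField q g F0).fixingSubgroup, locHom q g d ∈ F1.fixingSubgroup) :
    locField q g F1 = locField q g F0 := by
  rw [← InfiniteGalois.fixedField_fixingSubgroup (locField q g F1),
    ← InfiniteGalois.fixedField_fixingSubgroup (locField q g F0)]
  congr 1
  refine le_antisymm (IntermediateField.fixingSubgroup_antitone (locField_mono hle)) fun d hd => ?_
  rw [fixingSubgroup_locField, Subgroup.mem_comap]
  exact h d hd

/-- The prime is invariant under the field group. -/
lemma primeAt_mul_of_mem {u : GQ} (hu : u ∈ F0.fixingSubgroup) :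
    primeAt F0 q (g * u) = primeAt F0 q g := by
  refine HeightOneSpectrum.ext (Ideal.ext fun a => ?_)
  show ‖emb q (g * u) ((a : F0) : Qbar)‖ < 1 ↔ ‖emb q g ((a : F0) : Qbar)‖ < 1
  rw [emb_mul, (IntermediateField.mem_fixingSubgroup_iff _ _).1 hu _ (a : F0).2]

/-- The prime is invariant under decomposition. -/
lemma primeAt_mul_of_decomposition {σ : GQ} (hσ : σ ∈ (plA q g).decompositionSubgroup ℚ) :
    primeAt F0 q (g * σ) = primeAt F0 q g := by
  refine HeightOneSpectrum.ext (Ideal.ext fun a => ?_)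
  exact norm_emb_apply_lt_iff hσ ((a : F0) : Qbar)

end FermatAgent.LT.Octa
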