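import Fermat.Agent.LT.Period.Density

/-!
# The trace of the two dimensional complex lift of `GL₂(𝔽₃)`
-/

set_option autoImplicit false
set_option maxRecDepth 100000

noncomputable section

open Matrix

namespace FermatAgent.LT.Octa

open FermatAgent.LT.Period (GL3 refl3)

local notation "M₂" => Matrix (Fin 2) (Fin 2) (ZMod 3)

/-- The coordinates `(a, b)` of the trace `a + b √-2`. -/
def tPair (m : M₂) : ℤ × ℤ :=
  if m.det = 1 then
    if m = 1 then (2, 0) else if m = -1 then (-2, 0)
    else if m.trace = 0 then (0, 0) else if m.trace = 2 then (-1, 0) else (1, 0)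
  else if m.trace = 0 then (0, 0) else if m.trace = 1 then (0, -1) else (0, 1)

/-- The square root of `-2`. -/
def sqrtNegTwo : ℂ := (√(2 : ℝ) : ℂ) * Complex.I

/-- The trace of the lift. -/
def tC (g : GL3) : ℂ := ((tPair g.val).1 : ℂ) + ((tPair g.val).2 : ℂ) * sqrtNegTwo

/-- The quaternion subgroup. -/
def IsQ8 (g : GL3) : Prop := g.val.det = 1 ∧ g ^ 4 = 1

lemma glOf_mul (a b c e : ZMod 3) (h : a * e - b * c ≠ 0) :
    !![a, b; c, e] * ((a * e - b * c) • !![e, -b; -c, a]) = 1 := by
  have hd : (a * e - b * c) * (a * e - b * c) = 1 :=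
    (by decide : ∀ x : ZMod 3, x ≠ 0 → x * x = 1) _ h
  ext i j
  fin_cases i <;> fin_cases j <;> simp [Matrix.mul_apply, Fin.sum_univ_two] <;>
    first | linear_combination hd | ring

/-- The element of `GL₂(𝔽₃)` with the given entries; the determinant is its own inverse. -/
def glOf (a b c e : ZMod 3) (h : a * e - b * c ≠ 0) : GL3 :=
  ⟨!![a, b; c, e], (a * e - b * c) • !![e, -b; -c, a],
    glOf_mul a b c e h, mul_eq_one_comm.1 (glOf_mul a b c e h)⟩

lemma glOf_entries (g : GL3) (h : g.val 0 0 * g.val 1 1 - g.val 0 1 * g.val 1 0 ≠ 0) :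
    glOf (g.val 0 0) (g.val 0 1) (g.val 1 0) (g.val 1 1) h = g :=
  Units.ext (Matrix.eta_fin_two g.val).symm

lemma det_entries_ne_zero (g : GL3) : g.val 0 0 * g.val 1 1 - g.val 0 1 * g.val 1 0 ≠ 0 := by
  rw [← Matrix.det_fin_two]; exact Matrix.GeneralLinearGroup.det_ne_zero g

/-- A statement about all elements is one about their four entries. -/
lemma forall_gl3 {P : GL3 → Prop} :
    (∀ g, P g) ↔ ∀ a b c e, ∀ h : a * e - b * c ≠ 0, P (glOf a b c e h) := by
  refine ⟨fun H a b c e h => H _, fun H g => ?_⟩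
  rw [← glOf_entries g (det_entries_ne_zero g)]
  exact H _ _ _ _ _

/-- Existence over the group through entries. -/
lemma exists_gl3 {P : GL3 → Prop} :
    (∃ g, P g) ↔ ∃ a b c e, ∃ h : a * e - b * c ≠ 0, P (glOf a b c e h) :=
  ⟨fun ⟨g, hg⟩ => ⟨_, _, _, _, det_entries_ne_zero g, by rwa [glOf_entries]⟩,
    fun ⟨_, _, _, _, _, hg⟩ => ⟨_, hg⟩⟩

lemma glOf_val (a b c e : ZMod 3) (h : a * e - b * c ≠ 0) :
    (glOf a b c e h).val = !![a, b; c, e] := rfl

/-- The inverse in entries. -/
lemma glOf_val_inv (a b c e : ZMod 3) (h : a * e - b * c ≠ 0) :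
    ((glOf a b c e h)⁻¹).val =
      !![(a * e - b * c) * e, (a * e - b * c) * -b; (a * e - b * c) * -c, (a * e - b * c) * a] := by
  show (a * e - b * c) • !![e, -b; -c, a] = _
  simp

/-- Equality of two by two matrices. -/
lemma fin_two_eq_iff (a b c e a' b' c' e' : ZMod 3) :
    (!![a, b; c, e] = !![a', b'; c', e']) ↔ a = a' ∧ b = b' ∧ c = c' ∧ e = e' := by
  simp [and_assoc]

/-- The entries of an element. -/
def glEquiv : {t : ZMod 3 × ZMod 3 × ZMod 3 × ZMod 3 //
    t.1 * t.2.2.2 - t.2.1 * t.2.2.1 ≠ 0} ≃ GL3 where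
  toFun t := glOf _ _ _ _ t.2
  invFun g := ⟨(g.val 0 0, g.val 0 1, g.val 1 0, g.val 1 1), det_entries_ne_zero g⟩
  left_inv _ := rfl
  right_inv g := glOf_entries g _

/-- The element of order four. -/
def gI : GL3 := ⟨!![0, -1; 1, 0], !![0, 1; -1, 0], by decide, by decide⟩

/-- The cyclic subgroup of order four in coordinates. -/
def IsC4 (g : GL3) : Prop := g.val.det = 1 ∧ g.val 0 0 = g.val 1 1 ∧ g.val 0 1 = -g.val 1 0

instance (g : GL3) : Decidable (IsQ8 g) := inferInstanceAs (Decidable (_ ∧ _))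
instance (g : GL3) : Decidable (IsC4 g) := inferInstanceAs (Decidable (_ ∧ _))

/-- The character of order four, in exponents. -/
def chi4 (g : GL3) : ZMod 4 :=
  if g.val 0 0 = 1 then 0 else if g.val 0 0 = 2 then 2 else if g.val 1 0 = 1 then 1 else 3

set_option synthInstance.maxSize 2000 in
lemma tPair_q8_out : ∀ a b c d : ZMod 3, a * d - b * c = 1 →
    (!![a, b; c, d] : M₂) ^ 4 = 1 → ¬(a = d ∧ b = -c) →
      tPair !![a, b; c, d] = (0, 0) := by
  intro a b c d
  revert a b c d
  unfold tPair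
  simp only [Matrix.det_fin_two, Matrix.trace_fin_two]
  decide +kernel

set_option synthInstance.maxSize 2000 in
lemma tPair_q8_in : ∀ a b : ZMod 3, a * a + b * b = 1 →
    tPair !![a, -b; b, a] =
      (if a = 1 then (2, 0) else if a = 2 then (-2, 0) else (0, 0)) := by
  unfold tPair
  simp only [Matrix.det_fin_two, Matrix.trace_fin_two]
  decide +kernel

lemma q8_pow {g : GL3} (h : IsQ8 g) : g.val ^ 4 = 1 := by
  rw [← Units.val_pow_eq_pow_val, h.2, Units.val_one]

lemma q8_det {g : GL3} (h : IsQ8 g) :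
    g.val 0 0 * g.val 1 1 - g.val 0 1 * g.val 1 0 = 1 := by
  rw [← Matrix.det_fin_two]; exact h.1

/-- Outside the cyclic subgroup the trace vanishes on the quaternion subgroup. -/
theorem tC_eq_zero {g : GL3} (h : IsQ8 g) (hc : ¬IsC4 g) : tC g = 0 := by
  have e := tPair_q8_out (g.val 0 0) (g.val 0 1) (g.val 1 0) (g.val 1 1) (q8_det h)
    (by rw [← Matrix.eta_fin_two g.val]; exact q8_pow h) fun h' => hc ⟨h.1, h'⟩
  rw [← Matrix.eta_fin_two g.val] at e
  simp [tC, e]

lemma zmod3_cases : ∀ x : ZMod 3, x = 0 ∨ x = 1 ∨ x = 2 := by decide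

/-- On the cyclic subgroup the trace is the sum of the character and its inverse. -/
theorem tC_eq {g : GL3} (h : IsC4 g) (h8 : IsQ8 g) :
    tC g = Complex.I ^ (chi4 g).val + Complex.I ^ (-chi4 g).val := by
  obtain ⟨-, e11, e01⟩ := h
  have e := tPair_q8_in (g.val 0 0) (g.val 1 0) (by
    have := q8_det h8
    rw [← e11, e01] at this
    linear_combination this)
  have em : (!![g.val 0 0, -g.val 1 0; g.val 1 0, g.val 0 0] : M₂) = g.val := by
    rw [← e01, e11, ← e11]
    conv_rhs => rw [Matrix.eta_fin_two g.val]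
    rw [e11]
  rw [em] at e
  rw [tC, e, chi4]
  rcases zmod3_cases (g.val 0 0) with h0 | h0 | h0 <;> rw [h0]
  · by_cases hb : g.val 1 0 = 1
    · simp [hb, show (1 : ZMod 4).val = 1 from rfl, show (-1 : ZMod 4).val = 3 from rfl, pow_succ,
        show ¬(0 : ZMod 3) = 2 by decide]
    · simp [hb, show (3 : ZMod 4).val = 3 from rfl, show (-3 : ZMod 4).val = 1 from rfl, pow_succ,
        show ¬(0 : ZMod 3) = 2 by decide]
  · norm_num
  · norm_num [show ¬(2 : ZMod 3) = 1 by decide, show (2 : ZMod 4).val = 2 from rfl,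
      show (-2 : ZMod 4).val = 2 from rfl]

set_option maxRecDepth 100000 in
/-- The cyclic group has exponent four. -/
lemma c4_pow : ∀ g : GL3, IsC4 g → g ^ 4 = 1 := by
  rw [forall_gl3]
  decide +kernel

lemma tPair_conj_aux : ∀ g h : GL3, tPair (h * g * h⁻¹).val = tPair g.val := by
  intro g h
  have ht : (h * g * h⁻¹).val.trace = g.val.trace := by
    rw [Units.val_mul, Units.val_mul, Matrix.trace_units_conj]
  have hd : (h * g * h⁻¹).val.det = g.val.det := by
    rw [Units.val_mul, Units.val_mul, Matrix.det_units_conj]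
  have h1 : (h * g * h⁻¹).val = 1 ↔ g.val = 1 := by
    rw [← Units.val_one, Units.val_inj, Units.val_inj, conj_eq_one_iff]
  have h2 : (h * g * h⁻¹).val = -1 ↔ g.val = -1 := by
    rw [← Units.val_one, ← Units.val_neg, Units.val_inj, Units.val_inj]
    constructor
    · intro e
      have := congrArg (fun x => h⁻¹ * x * h) e
      simpa [mul_assoc] using this
    · rintro rfl
      simp
  simp only [tPair, ht, hd, h1, h2]

/-- The trace is a class function. -/
theorem tC_conj (g h : GL3) : tC (h * g * h⁻¹) = tC g := by rw [tC, tC, tPair_conj_aux g h]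

/-- The trace at one. -/
lemma tC_one : tC 1 = 2 := by norm_num [tC, tPair]

/-- The trace at minus one. -/
lemma tC_neg_one : tC (-1) = -2 := by
  have e : tPair (-1 : GL3).val = (-2, 0) := by decide +kernel
  rw [tC, e]; norm_num

end FermatAgent.LT.Octa
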