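import Fermat.Agent.LT.Octa.Psi
import Fermat.Agent.GaloisBasic.Inertia

/-!
# Subgroups of `GL₂(𝔽₃)`
-/

set_option autoImplicit false

noncomputable section

open FermatAgent.GaloisBasic
open FermatAgent.LT.Period (GL3)

namespace FermatAgent.LT.Octa

set_option maxRecDepth 100000 in
lemma q8_mul : ∀ a b : GL3, IsQ8 a → IsQ8 b → IsQ8 (a * b) := by
  have key : ∀ a : GL3, IsQ8 a → ∀ b : GL3, IsQ8 b → IsQ8 (a * b) := by
    simp only [forall_gl3]
    decide +kernel
  exact fun a b ha => key a ha b

set_option maxRecDepth 100000 in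
lemma c4_mul : ∀ a b : GL3, IsC4 a → IsC4 b → IsC4 (a * b) := by
  have key : ∀ a : GL3, IsC4 a → ∀ b : GL3, IsC4 b → IsC4 (a * b) := by
    simp only [forall_gl3]
    decide +kernel
  exact fun a b ha => key a ha b

/-- The determinant one subgroup. -/
def slThree : Subgroup GL3 := Matrix.GeneralLinearGroup.det.ker

/-- Membership in the special linear group. -/
lemma mem_slThree {g : GL3} : g ∈ slThree ↔ g.val.det = 1 := by
  rw [slThree, MonoidHom.mem_ker, Units.ext_iff]
  exact Iff.of_eq (by simp)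

/-- The quaternion subgroup. -/
def q8 : Subgroup GL3 where
  carrier := {g | IsQ8 g}
  one_mem' := ⟨by simp, one_pow 4⟩
  mul_mem' := fun {a b} ha hb => q8_mul a b ha hb
  inv_mem' := fun {a} ha => by
    have h : a⁻¹ = a * a * a := inv_eq_of_mul_eq_one_right (by
      rw [show a * (a * a * a) = a ^ 4 by simp [pow_succ, mul_assoc]]; exact ha.2)
    rw [h]
    exact q8_mul _ _ (q8_mul _ _ ha ha) ha

/-- The cyclic subgroup of order four. -/
def c4 : Subgroup GL3 where
  carrier := {g | IsC4 g}
  one_mem' := ⟨by simp, by simp, by simp⟩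
  mul_mem' := fun {a b} ha hb => c4_mul a b ha hb
  inv_mem' := fun {a} ha => by
    have h4 : a ^ 4 = 1 := c4_pow a ha
    have h : a⁻¹ = a * a * a := inv_eq_of_mul_eq_one_right (by
      rw [show a * (a * a * a) = a ^ 4 by simp [pow_succ, mul_assoc]]; exact h4)
    rw [h]
    exact c4_mul _ _ (c4_mul _ _ ha ha) ha

/-- The cyclic group lies in the quaternion group. -/
lemma c4_le_q8 : c4 ≤ q8 := fun g hg => ⟨hg.1, c4_pow g hg⟩

/-- The quaternion group lies in the special linear group. -/
lemma q8_le_sl : q8 ≤ slThree := fun _ hg => mem_slThree.2 hg.1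

set_option maxRecDepth 100000 in
/-- The quaternion group is normal. -/
lemma q8_conj : ∀ g h : GL3, IsQ8 g → IsQ8 (h * g * h⁻¹) := fun g h hg =>
  ⟨by rw [Units.val_mul, Units.val_mul, Matrix.det_units_conj]; exact hg.1,
    by rw [conj_pow, hg.2, mul_one, mul_inv_cancel]⟩

set_option maxRecDepth 100000 in
/-- The cyclic group is normal in the quaternion group. -/
lemma c4_conj_q8 : ∀ g h : GL3, IsC4 g → IsQ8 h → IsC4 (h * g * h⁻¹) := by
  have key : ∀ g : GL3, IsC4 g → ∀ h : GL3, IsQ8 h → IsC4 (h * g * h⁻¹) := by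
    simp only [forall_gl3]
    decide +kernel
  exact fun g h hg => key g hg h

instance q8_normal : q8.Normal := ⟨fun g hg h => q8_conj g h hg⟩

end FermatAgent.LT.Octa
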