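import Fermat.Agent.LT.Octa.Char

/-!
# Powers of a quaternion off the cyclic subgroup
-/

set_option autoImplicit false
set_option maxRecDepth 20000

noncomputable section

open scoped Classical NumberField
open IsDedekindDomain

namespace FermatAgent.LT.Octa

open CFT CFT.Coh CFT.Local CFT.Global GaloisBasic
open FermatAgent.LT.Period (GL3)

/-- Cyclic powers of an outside element are `±1`. -/
lemma c4_pow_cases {h : GL3} (hq : IsQ8 h) (hc : ¬IsC4 h) (i : ℕ) (hi : IsC4 (h ^ i)) :
    h ^ i = 1 ∨ h ^ i = -1 := by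
  have h2 := sq_eq_neg_one h hq hc
  have hn : ∀ k : ℕ, (-1 : GL3) ^ k = 1 ∨ (-1 : GL3) ^ k = -1 := fun k =>
    (Nat.even_or_odd k).imp (fun e => e.neg_one_pow) fun e => e.neg_one_pow
  obtain ⟨k, rfl | rfl⟩ := Nat.even_or_odd' i
  · rw [pow_mul, pow_two, h2]; exact hn k
  · exfalso
    refine hc ?_
    have hk : IsC4 ((-1 : GL3) ^ k) := c4.pow_mem (show (-1 : GL3) ∈ c4 from c4_neg_one.1) k
    have := mul_mem (inv_mem (show (-1 : GL3) ^ k ∈ c4 from hk)) (show h ^ (2 * k + 1) ∈ c4 from hi)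
    rwa [pow_succ, pow_mul, pow_two, h2, inv_mul_cancel_left] at this

end FermatAgent.LT.Octa
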